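import Mathlib.NumberTheory.NumberField.Ideal.Asymptotics
import Mathlib.Analysis.PSeries
import Mathlib.Data.Set.Card.Arithmetic
import Mathlib.FieldTheory.Finite.Basic
import Mathlib.RingTheory.Ideal.Quotient.HasFiniteQuotients

/-!
# Degree-one primes generate the class group

For a number field `K` and `N₀ : ℕ`, every ideal class contains an integral ideal all of whose
prime factors have prime absolute norm larger than `N₀`. The proof only uses the asymptotic count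
of ideals in a class, inclusion-exclusion, and `∑ 1/N P < ∞` over the remaining primes.
-/

set_option autoImplicit false

open scoped NumberField nonZeroDivisors Topology

namespace Fermat.Agent.S14.DegOne

open Ideal Filter

variable (K : Type*) [Field K] [NumberField K]

/-- A prime ideal of prime norm larger than `N₀`. -/
def IsGood (N₀ : ℕ) (P : Ideal (𝓞 K)) : Prop := (absNorm P).Prime ∧ N₀ < absNorm P

variable {K}

lemma exists_norm_eq_pow {P : Ideal (𝓞 K)} (hP : P.IsPrime) (hP0 : P ≠ ⊥) :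
    ∃ l f : ℕ, l.Prime ∧ 0 < f ∧ absNorm P = l ^ f ∧ (l : 𝓞 K) ∈ P := by
  have hmax : P.IsMaximal := hP.isMaximal hP0
  let _ : Field (𝓞 K ⧸ P) := Ideal.Quotient.field P
  have : Finite (𝓞 K ⧸ P) := Ring.HasFiniteQuotients.finiteQuotient hP0
  have : Fintype (𝓞 K ⧸ P) := Fintype.ofFinite _
  obtain ⟨l, hl⟩ := CharP.exists (𝓞 K ⧸ P)
  obtain ⟨n, hlp, hn⟩ := FiniteField.card (𝓞 K ⧸ P) l
  refine ⟨l, n, hlp, n.pos, ?_, ?_⟩
  · rw [absNorm_apply, Submodule.cardQuot_apply]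
    exact (Nat.card_eq_fintype_card (α := 𝓞 K ⧸ P)).trans hn
  · rw [← Ideal.Quotient.eq_zero_iff_mem, map_natCast]
    exact CharP.cast_eq_zero _ _

/-- The residue characteristic of a prime ideal. -/
noncomputable def below (P : Ideal (𝓞 K)) : ℕ := (absNorm P).minFac

lemma below_spec {P : Ideal (𝓞 K)} (hP : P.IsPrime) (hP0 : P ≠ ⊥) :
    (below P).Prime ∧ (below P : 𝓞 K) ∈ P ∧ ∃ f, 0 < f ∧ absNorm P = below P ^ f := by
  obtain ⟨l, f, hl, hf, h, hmem⟩ := exists_norm_eq_pow hP hP0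
  have hb : below P = l := by rw [below, h, Nat.pow_minFac hf.ne', hl.minFac_eq]
  rw [hb]
  exact ⟨hl, hmem, f, hf, h⟩

lemma card_fiber_le (T : Finset (Ideal (𝓞 K))) (hT : ∀ P ∈ T, P.IsPrime ∧ P ≠ ⊥) {l : ℕ}
    (hl : l.Prime) (hTl : ∀ P ∈ T, below P = l) :
    T.card ≤ Module.finrank ℚ K := by
  classical
  have hdvd : (∏ P ∈ T, P) ∣ span {(l : 𝓞 K)} := by
    refine Finset.prod_primes_dvd _ (fun P hP => ?_) (fun P hP => ?_)
    · exact Ideal.prime_of_isPrime (hT P hP).2 (hT P hP).1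
    · rw [Ideal.dvd_span_singleton]
      have := (below_spec (hT P hP).1 (hT P hP).2).2.1
      rwa [hTl P hP] at this
  have h1 := map_dvd absNorm hdvd
  rw [map_prod, Ideal.absNorm_span_singleton] at h1
  have hnorm : (Algebra.norm ℤ (l : 𝓞 K)).natAbs = l ^ Module.finrank ℚ K := by
    rw [show (l : 𝓞 K) = algebraMap ℤ (𝓞 K) l by simp, Algebra.norm_algebraMap, Int.natAbs_pow,
      Int.natAbs_natCast, NumberField.RingOfIntegers.rank]
  rw [hnorm] at h1
  have h2 : l ^ T.card ∣ ∏ P ∈ T, absNorm P := by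
    rw [← Finset.prod_const]
    refine Finset.prod_dvd_prod_of_dvd _ _ fun P hP => ?_
    obtain ⟨-, -, f, hf, h⟩ := below_spec (hT P hP).1 (hT P hP).2
    rw [h, hTl P hP]
    exact dvd_pow_self l hf.ne'
  exact (Nat.pow_dvd_pow_iff_le_right hl.one_lt).mp (h2.trans h1)

lemma sum_inv_norm_le {N₀ M : ℕ} (hM : 1 ≤ M) (hN : N₀ ≤ M ^ 2) (T : Finset (Ideal (𝓞 K)))
    (hT : ∀ P ∈ T, P.IsPrime ∧ P ≠ ⊥ ∧ ¬ IsGood K N₀ P ∧ M ^ 2 < absNorm P) :
    ∑ P ∈ T, (absNorm P : ℝ)⁻¹ ≤ 2 * Module.finrank ℚ K / M := by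
  classical
  set d := Module.finrank ℚ K
  have hsq : ∀ P ∈ T, below P ^ 2 ≤ absNorm P := by
    intro P hP
    obtain ⟨hp, h0, hbad, hlt⟩ := hT P hP
    obtain ⟨hl, -, f, hf, h⟩ := below_spec hp h0
    have hf2 : 2 ≤ f := by
      rcases Nat.lt_or_ge f 2 with hf2 | hf2
      · have : f = 1 := by omega
        rw [this, pow_one] at h
        exact absurd ⟨h ▸ hl, lt_of_le_of_lt hN hlt⟩ hbad
      · exact hf2
    rw [h]
    exact Nat.pow_le_pow_right hl.pos hf2
  rw [← Finset.sum_fiberwise_of_maps_to (g := below) (t := T.image below)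
    (fun P hP => Finset.mem_image_of_mem _ hP)]
  have hfib : ∀ l ∈ T.image below, ∀ b : ℝ, 0 ≤ b →
      (∀ P ∈ T, below P = l → (absNorm P : ℝ)⁻¹ ≤ b) →
      ∑ P ∈ T.filter (fun P => below P = l), (absNorm P : ℝ)⁻¹ ≤ d * b := by
    intro l hl b hb0 hb
    refine (Finset.sum_le_card_nsmul _ _ b fun P hP => ?_).trans ?_
    · rw [Finset.mem_filter] at hP
      exact hb P hP.1 hP.2
    rw [nsmul_eq_mul]
    refine mul_le_mul_of_nonneg_right ?_ hb0
    obtain ⟨Q, hQ, rfl⟩ := Finset.mem_image.mp hl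
    exact Nat.cast_le.mpr (card_fiber_le _
      (fun P hP => ⟨(hT P (Finset.mem_filter.mp hP).1).1, (hT P (Finset.mem_filter.mp hP).1).2.1⟩)
      (below_spec (hT Q hQ).1 (hT Q hQ).2.1).1 (fun P hP => (Finset.mem_filter.mp hP).2))
  rw [← Finset.sum_filter_add_sum_filter_not (T.image below) (fun l => l ≤ M)]
  have hMR : (0 : ℝ) < M := Nat.cast_pos.mpr hM
  have e : (2 : ℝ) * d / M = d / M + d / M := by ring
  rw [e]
  refine add_le_add ?_ ?_
  · refine (Finset.sum_le_card_nsmul _ _ ((d : ℝ) * ((M : ℝ) ^ 2)⁻¹) fun l hl => ?_).trans ?_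
    · refine hfib l (Finset.mem_filter.mp hl).1 _ (by positivity) fun P hP _ => ?_
      refine inv_anti₀ (by positivity) ?_
      exact_mod_cast (hT P hP).2.2.2.le
    · rw [nsmul_eq_mul]
      have hc : ((T.image below).filter (fun l => l ≤ M)).card ≤ M := by
        refine (Finset.card_le_card (t := Finset.Icc 1 M) fun l hl => ?_).trans (by simp)
        obtain ⟨hl1, hl2⟩ := Finset.mem_filter.mp hl
        obtain ⟨Q, hQ, rfl⟩ := Finset.mem_image.mp hl1
        exact Finset.mem_Icc.mpr ⟨(below_spec (hT Q hQ).1 (hT Q hQ).2.1).1.one_lt.le, hl2⟩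
      refine (mul_le_mul_of_nonneg_right (Nat.cast_le.mpr hc) (by positivity)).trans (le_of_eq ?_)
      field_simp
  · refine (Finset.sum_le_sum (g := fun l : ℕ => (d : ℝ) * ((l : ℝ) ^ 2)⁻¹) fun l hl => ?_).trans ?_
    · refine hfib l (Finset.mem_filter.mp hl).1 _ (by positivity) fun P hP hPl => ?_
      subst hPl
      have hpos : 0 < below P := (below_spec (hT P hP).1 (hT P hP).2.1).1.pos
      refine inv_anti₀ (by positivity) ?_
      exact_mod_cast hsq P hP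
    · rw [← Finset.mul_sum, div_eq_mul_inv]
      refine mul_le_mul_of_nonneg_left ?_ (Nat.cast_nonneg _)
      set n := max M ((T.image below).sup id)
      refine (Finset.sum_le_sum_of_subset_of_nonneg (t := Finset.Ioc M n) (fun l hl => ?_)
        (fun i _ _ => by positivity)).trans ?_
      · obtain ⟨hl1, hl2⟩ := Finset.mem_filter.mp hl
        exact Finset.mem_Ioc.mpr ⟨not_le.mp hl2,
          le_max_of_le_right (Finset.le_sup (f := id) hl1)⟩
      · refine (sum_Ioc_inv_sq_le_sub (α := ℝ) (by omega) (le_max_left _ _)).trans ?_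
        exact sub_le_self _ (by positivity)

variable (K)

/-- Number of nonzero ideals of norm `≤ s` in class `c` prime to all members of `S`. -/
noncomputable def sieveCount (S : Finset (Ideal (𝓞 K))) (c : ClassGroup (𝓞 K)) (s : ℝ) : ℕ :=
  {I : (Ideal (𝓞 K))⁰ | (absNorm (I : Ideal (𝓞 K)) : ℝ) ≤ s ∧ ClassGroup.mk0 I = c ∧
    ∀ P ∈ S, ¬ P ∣ (I : Ideal (𝓞 K))}.ncard

lemma finite_norm_le (s : ℝ) :
    {I : (Ideal (𝓞 K))⁰ | (absNorm (I : Ideal (𝓞 K)) : ℝ) ≤ s}.Finite := by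
  refine (Ideal.finite_setOfPred_absNorm_le₀ ⌊s⌋₊).subset fun I hI => ?_
  exact Nat.le_floor hI

lemma sieveCount_insert {S : Finset (Ideal (𝓞 K))} {P : Ideal (𝓞 K)} (hS : ∀ Q ∈ S, Q.IsPrime)
    (hP : P.IsPrime) (hP0 : P ≠ ⊥) (hPS : P ∉ S) [DecidableEq (Ideal (𝓞 K))]
    (c : ClassGroup (𝓞 K)) (s : ℝ) :
    (sieveCount K (insert P S) c s : ℝ) = sieveCount K S c s -
      sieveCount K S (c / ClassGroup.mk0 ⟨P, mem_nonZeroDivisors_of_ne_zero hP0⟩)
        (s / absNorm P) := by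
  set P' : (Ideal (𝓞 K))⁰ := ⟨P, mem_nonZeroDivisors_of_ne_zero hP0⟩
  have hNP : (0 : ℝ) < absNorm P := Nat.cast_pos.mpr (absNorm_pos_of_nonZeroDivisors P')
  set A := {I : (Ideal (𝓞 K))⁰ | (absNorm (I : Ideal (𝓞 K)) : ℝ) ≤ s ∧ ClassGroup.mk0 I = c ∧
    ∀ Q ∈ S, ¬ Q ∣ (I : Ideal (𝓞 K))} with hA
  set D := {I : (Ideal (𝓞 K))⁰ | P ∣ (I : Ideal (𝓞 K))}
  have hAf : A.Finite := (finite_norm_le K s).subset fun I hI => hI.1
  have h1 : (A \ D).ncard = sieveCount K (insert P S) c s := by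
    unfold sieveCount
    congr 1
    ext I
    simp only [hA, D, Set.mem_sdiff, Set.mem_ofPred_eq, Finset.forall_mem_insert]
    tauto
  have h2 : (A ∩ D).ncard = sieveCount K S (c / ClassGroup.mk0 P') (s / absNorm P) := by
    unfold sieveCount
    refine Eq.trans ?_ (Set.ncard_image_of_injective _ (mul_right_injective P'))
    congr 1
    ext I
    simp only [hA, D, Set.mem_inter_iff, Set.mem_ofPred_eq, Set.mem_image]
    constructor
    · rintro ⟨⟨h1, h2, h3⟩, J, hJ⟩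
      have hJ0 : J ≠ 0 := fun h0 => nonZeroDivisors.ne_zero I.2 (by rw [hJ, h0, mul_zero])
      refine ⟨⟨J, mem_nonZeroDivisors_of_ne_zero hJ0⟩, ⟨?_, ?_, fun Q hQ hd => ?_⟩,
        Subtype.ext hJ.symm⟩
      · rw [le_div_iff₀ hNP]
        rw [hJ, map_mul, Nat.cast_mul, mul_comm] at h1
        exact h1
      · rw [← h2, eq_div_iff_mul_eq', ← map_mul, mul_comm]
        congr 1
        exact Subtype.ext hJ.symm
      · exact h3 Q hQ (hJ ▸ hd.mul_left P)
    · rintro ⟨J, ⟨h1, h2, h3⟩, rfl⟩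
      refine ⟨⟨?_, ?_, fun Q hQ hd => ?_⟩, dvd_mul_right _ _⟩
      · rw [Submonoid.coe_mul, map_mul, Nat.cast_mul, mul_comm]
        exact (le_div_iff₀ hNP).mp h1
      · rw [map_mul, h2]
        exact mul_div_cancel _ _
      · rw [Submonoid.coe_mul] at hd
        rcases eq_or_ne Q ⊥ with hQ0 | hQ0
        · rw [hQ0, ← Ideal.zero_eq_bot, zero_dvd_iff, ← Submonoid.coe_mul] at hd
          exact nonZeroDivisors.ne_zero (P' * J).2 hd
        rcases (Ideal.prime_of_isPrime hQ0 (hS Q hQ)).dvd_or_dvd hd with hd | hd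
        · have hQP : Q = P :=
            ((hP.isMaximal hP0).eq_of_le (hS Q hQ).ne_top (Ideal.le_of_dvd hd)).symm
          exact hPS (hQP ▸ hQ)
        · exact h3 Q hQ hd
  have h3 := Set.ncard_inter_add_ncard_sdiff_eq_ncard A D hAf
  rw [h1, h2] at h3
  have : (sieveCount K S c s : ℕ) = A.ncard := rfl
  rw [this, ← h3, Nat.cast_add]
  ring

/-- The common asymptotic density of ideals in each class. -/
lemma exists_classDensity :
    ∃ κ : ℝ, 0 < κ ∧ ∀ c : ClassGroup (𝓞 K),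
      Tendsto (fun s => (sieveCount K ∅ c s : ℝ) / s) atTop (𝓝 κ) := by
  refine ⟨_, ?_, fun c => (NumberField.Ideal.tendsto_norm_le_and_mk_eq_div_atTop K c).congr
    fun s => ?_⟩
  · have := NumberField.Units.regulator_pos K
    have := NumberField.discr_ne_zero K
    have := NumberField.Units.torsionOrder_ne_zero K
    positivity
  · simp [sieveCount, ← Nat.card_coe_set_eq, Set.coe_eq_subtype]

lemma tendsto_sieveCount {κ : ℝ} (hκ : ∀ c : ClassGroup (𝓞 K),
      Tendsto (fun s => (sieveCount K ∅ c s : ℝ) / s) atTop (𝓝 κ))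
    (S : Finset (Ideal (𝓞 K))) (hS : ∀ P ∈ S, P.IsPrime ∧ P ≠ ⊥) (c : ClassGroup (𝓞 K)) :
    Tendsto (fun s => (sieveCount K S c s : ℝ) / s) atTop
      (𝓝 (κ * ∏ P ∈ S, (1 - (absNorm P : ℝ)⁻¹))) := by
  classical
  induction S using Finset.induction_on generalizing c with
  | empty => simpa using hκ c
  | insert P S hPS ih =>
    simp only [Finset.forall_mem_insert] at hS
    obtain ⟨⟨hP, hP0⟩, hS⟩ := hS
    have hNP : (0 : ℝ) < absNorm P :=
      Nat.cast_pos.mpr (absNorm_pos_of_nonZeroDivisors ⟨P, mem_nonZeroDivisors_of_ne_zero hP0⟩)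
    have h2 := ((ih hS (c / ClassGroup.mk0 ⟨P, mem_nonZeroDivisors_of_ne_zero hP0⟩)).comp
      (tendsto_id.atTop_div_const hNP)).div_const (absNorm P : ℝ)
    have h := (ih hS c).sub h2
    rw [Finset.prod_insert hPS]
    convert! h using 2 with s
    · rw [sieveCount_insert K (fun Q hQ => (hS Q hQ).1) hP hP0 hPS]
      simp only [Function.comp_apply, id_eq]
      rcases eq_or_ne s 0 with hs | hs
      · simp [hs]
      field_simp
    · field_simp

lemma exists_bound_norm_le :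
    ∃ C : ℝ, 0 ≤ C ∧ ∀ s : ℝ, 0 ≤ s →
      ({I : (Ideal (𝓞 K))⁰ | (absNorm (I : Ideal (𝓞 K)) : ℝ) ≤ s}.ncard : ℝ) ≤ C * s := by
  set a := fun s : ℝ => ({I : (Ideal (𝓞 K))⁰ | (absNorm (I : Ideal (𝓞 K)) : ℝ) ≤ s}.ncard : ℝ)
    with ha
  obtain ⟨L, hL⟩ : ∃ L, Tendsto (fun s => a s / s) atTop (𝓝 L) :=
    ⟨_, (NumberField.Ideal.tendsto_norm_le_div_atTop₀ K).congr fun s => by
      simp [ha, ← Nat.card_coe_set_eq, Set.coe_eq_subtype]⟩
  obtain ⟨s₀, hs₀⟩ := eventually_atTop.mp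
    ((hL.eventually (eventually_le_nhds (lt_add_one L))).and (eventually_gt_atTop 0))
  refine ⟨max 0 (L + 1) + a s₀, by positivity, fun s hs => ?_⟩
  change a s ≤ _
  rcases lt_or_ge s 1 with h1 | h1
  · have : a s = 0 := by
      simp only [ha, Nat.cast_eq_zero, Set.ncard_eq_zero (finite_norm_le K s)]
      refine Set.eq_empty_iff_forall_notMem.mpr fun I hI => ?_
      have h1' : (1 : ℝ) ≤ absNorm (I : Ideal (𝓞 K)) :=
        Nat.one_le_cast.mpr (absNorm_pos_of_nonZeroDivisors I)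
      exact absurd (h1'.trans hI) (not_le.mpr h1)
    rw [this]; positivity
  rcases le_or_gt s₀ s with h2 | h2
  · have := (hs₀ s h2).1
    rw [div_le_iff₀ (hs₀ s h2).2] at this
    refine this.trans (mul_le_mul_of_nonneg_right ?_ hs)
    linarith [le_max_right 0 (L + 1), show 0 ≤ a s₀ from Nat.cast_nonneg _]
  · have hmono : a s ≤ a s₀ := Nat.cast_le.mpr
      (Set.ncard_le_ncard (fun I hI => le_trans hI h2.le) (finite_norm_le K s₀))
    refine hmono.trans ((le_mul_of_one_le_right (Nat.cast_nonneg _) h1).trans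
      (mul_le_mul_of_nonneg_right ?_ hs))
    linarith [le_max_left 0 (L + 1)]

lemma exp_neg_two_mul_le {a : ℝ} (h0 : 0 ≤ a) (h1 : a ≤ 1 / 2) :
    Real.exp (-(2 * a)) ≤ 1 - a := by
  rw [Real.exp_neg, inv_le_iff_one_le_mul₀ (Real.exp_pos _)]
  nlinarith [Real.add_one_le_exp (2 * a)]

/-- Every ideal class contains an ideal composed of primes of prime norm `> N₀`. -/
theorem exists_mk0_eq_forall_isGood (N₀ : ℕ) (c : ClassGroup (𝓞 K)) :
    ∃ I : (Ideal (𝓞 K))⁰, ClassGroup.mk0 I = c ∧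
      ∀ P : Ideal (𝓞 K), P.IsPrime → P ∣ (I : Ideal (𝓞 K)) → IsGood K N₀ P := by
  classical
  by_contra! hne
  obtain ⟨κ, hκ0, hκ⟩ := exists_classDensity K
  obtain ⟨C, hC0, hC⟩ := exists_bound_norm_le K
  set d := Module.finrank ℚ K
  -- the bad primes of norm at most `B`
  have hfin : ∀ B : ℕ, {P : Ideal (𝓞 K) | P.IsPrime ∧ P ≠ ⊥ ∧ ¬ IsGood K N₀ P ∧
      absNorm P ≤ B}.Finite := fun B =>
    (Ideal.finite_setOfPred_absNorm_le B).subset fun P hP => hP.2.2.2
  set bad := fun B : ℕ => (hfin B).toFinset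
  have mem_bad : ∀ {B P}, P ∈ bad B ↔
      P.IsPrime ∧ P ≠ ⊥ ∧ ¬ IsGood K N₀ P ∧ absNorm P ≤ B := fun {B P} => (hfin B).mem_toFinset
  set M₀ := N₀ + 1
  have hM₀ : N₀ ≤ M₀ ^ 2 := by
    have := Nat.le_self_pow (two_ne_zero) M₀
    omega
  set R : ℝ := ∑ P ∈ bad (M₀ ^ 2), (absNorm P : ℝ)⁻¹ + 2 * d / M₀
  set δ : ℝ := Real.exp (-(2 * R))
  have key : ∀ M : ℕ, M₀ ≤ M → κ * δ ≤ C * (2 * d / M) := by
    intro M hM
    set S := bad (M ^ 2)
    have hSp : ∀ P ∈ S, P.IsPrime ∧ P ≠ ⊥ := fun P hP => ⟨(mem_bad.mp hP).1, (mem_bad.mp hP).2.1⟩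
    have hδ : δ ≤ ∏ P ∈ S, (1 - (absNorm P : ℝ)⁻¹) := by
      have hb : ∑ P ∈ S, (absNorm P : ℝ)⁻¹ ≤ R := by
        rw [← Finset.sum_filter_add_sum_filter_not S (fun P => absNorm P ≤ M₀ ^ 2)]
        refine add_le_add ?_ (sum_inv_norm_le (N₀ := N₀) (Nat.succ_pos _) hM₀ _ fun P hP => ?_)
        · refine Finset.sum_le_sum_of_subset_of_nonneg (fun P hP => ?_) (fun P _ _ => by positivity)
          obtain ⟨h1, h2⟩ := Finset.mem_filter.mp hP
          exact mem_bad.mpr ⟨(mem_bad.mp h1).1, (mem_bad.mp h1).2.1, (mem_bad.mp h1).2.2.1, h2⟩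
        · obtain ⟨h1, h2⟩ := Finset.mem_filter.mp hP
          exact ⟨(mem_bad.mp h1).1, (mem_bad.mp h1).2.1, (mem_bad.mp h1).2.2.1, not_le.mp h2⟩
      calc δ ≤ Real.exp (-(2 * ∑ P ∈ S, (absNorm P : ℝ)⁻¹)) := Real.exp_le_exp.mpr (by linarith)
        _ = ∏ P ∈ S, Real.exp (-(2 * (absNorm P : ℝ)⁻¹)) := by
          rw [← Real.exp_sum, Finset.mul_sum, Finset.sum_neg_distrib]
        _ ≤ _ := Finset.prod_le_prod (fun P _ => (Real.exp_pos _).le) fun P hP => by
          obtain ⟨hl, -, f, hf, h⟩ := below_spec (hSp P hP).1 (hSp P hP).2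
          refine exp_neg_two_mul_le (by positivity) ?_
          rw [one_div]
          refine inv_anti₀ two_pos ?_
          have : 2 ≤ absNorm P := h ▸ hl.two_le.trans (Nat.le_self_pow hf.ne' _)
          exact_mod_cast this
    refine le_trans (mul_le_mul_of_nonneg_left hδ hκ0.le) ?_
    refine le_of_tendsto (tendsto_sieveCount K hκ S hSp c) ?_
    filter_upwards [eventually_gt_atTop 0] with s hs
    rw [div_le_iff₀ hs]
    set T := (bad ⌊s⌋₊).filter (fun P => M ^ 2 < absNorm P)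
    have hT : ∀ P ∈ T, P.IsPrime ∧ P ≠ ⊥ ∧ ¬ IsGood K N₀ P ∧ M ^ 2 < absNorm P := fun P hP => by
      obtain ⟨h1, h2⟩ := Finset.mem_filter.mp hP
      exact ⟨(mem_bad.mp h1).1, (mem_bad.mp h1).2.1, (mem_bad.mp h1).2.2.1, h2⟩
    set F := fun P : Ideal (𝓞 K) => {I : (Ideal (𝓞 K))⁰ |
      (absNorm (I : Ideal (𝓞 K)) : ℝ) ≤ s ∧ P ∣ (I : Ideal (𝓞 K))}
    have hFf : ∀ P, (F P).Finite := fun P => (finite_norm_le K s).subset fun I hI => hI.1
    have hsub : sieveCount K S c s ≤ ∑ P ∈ T, (F P).ncard := by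
      refine le_trans (Set.ncard_le_ncard ?_ ?_) (Finset.set_ncard_biUnion_le T F)
      · rintro I ⟨h1, h2, h3⟩
        obtain ⟨P, hP, hdvd, hbad⟩ := hne I h2
        have hP0 : P ≠ ⊥ := by
          rintro rfl
          rw [← Ideal.zero_eq_bot, zero_dvd_iff] at hdvd
          exact nonZeroDivisors.ne_zero I.2 hdvd
        have hle : absNorm P ≤ ⌊s⌋₊ := Nat.le_floor (le_trans (Nat.cast_le.mpr
          (Nat.le_of_dvd (absNorm_pos_of_nonZeroDivisors I) (map_dvd absNorm hdvd))) h1)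
        refine Set.mem_biUnion (x := P) ?_ ⟨h1, hdvd⟩
        refine Finset.mem_filter.mpr ⟨mem_bad.mpr ⟨hP, hP0, hbad, hle⟩, ?_⟩
        by_contra hlt
        exact h3 P (mem_bad.mpr ⟨hP, hP0, hbad, not_lt.mp hlt⟩) hdvd
      · exact T.finite_toSet.biUnion fun P _ => hFf P
    calc (sieveCount K S c s : ℝ) ≤ ∑ P ∈ T, ((F P).ncard : ℝ) := by exact_mod_cast hsub
      _ ≤ ∑ P ∈ T, C * s * (absNorm P : ℝ)⁻¹ := Finset.sum_le_sum fun P hP => by
          have hP0 := (hT P hP).2.1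
          set P' : (Ideal (𝓞 K))⁰ := ⟨P, mem_nonZeroDivisors_of_ne_zero hP0⟩
          have hNP : (0 : ℝ) < absNorm P := Nat.cast_pos.mpr (absNorm_pos_of_nonZeroDivisors P')
          have h := hC (s / absNorm P) (by positivity)
          rw [div_eq_mul_inv, ← mul_assoc] at h
          refine le_trans (Nat.cast_le.mpr ?_) h
          refine le_trans (Set.ncard_le_ncard ?_ ((finite_norm_le K _).image (P' * ·)))
            (Set.ncard_image_le (finite_norm_le K _))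
          rintro I ⟨h1, J, hJ⟩
          have hJ0 : J ≠ 0 := fun h0 => nonZeroDivisors.ne_zero I.2 (by rw [hJ, h0, mul_zero])
          refine ⟨⟨J, mem_nonZeroDivisors_of_ne_zero hJ0⟩, ?_, Subtype.ext hJ.symm⟩
          rw [Set.mem_ofPred_eq, ← div_eq_mul_inv, le_div_iff₀ hNP]
          rw [hJ, map_mul, Nat.cast_mul, mul_comm] at h1
          exact h1
      _ ≤ C * (2 * d / M) * s := by
          rw [← Finset.mul_sum, mul_right_comm C _ s]
          refine mul_le_mul_of_nonneg_left ?_ (by positivity)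
          exact sum_inv_norm_le (N₀ := N₀) (by omega)
            (hM₀.trans (Nat.pow_le_pow_left hM 2)) T hT
  obtain ⟨n, hn⟩ := exists_nat_gt (C * (2 * d) / (κ * δ))
  have hpos : 0 < κ * δ := mul_pos hκ0 (Real.exp_pos _)
  have h := key (n + M₀) (Nat.le_add_left _ _)
  rw [div_lt_iff₀ hpos] at hn
  have hM' : (0 : ℝ) < ((n + M₀ : ℕ) : ℝ) := Nat.cast_pos.mpr (by omega)
  rw [mul_div_assoc', le_div_iff₀ hM'] at h
  push_cast at h
  nlinarith [mul_nonneg hpos.le (Nat.cast_nonneg M₀ : (0 : ℝ) ≤ M₀)]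

/-- A homomorphism on the class group trivial on primes of prime norm `> N₀` is trivial. -/
theorem hom_eq_one_of_forall_isGood (N₀ : ℕ) {M : Type*} [Monoid M]
    (φ : ClassGroup (𝓞 K) →* M)
    (h : ∀ P : (Ideal (𝓞 K))⁰, (P : Ideal (𝓞 K)).IsPrime → IsGood K N₀ P →
      φ (ClassGroup.mk0 P) = 1) : φ = 1 := by
  ext c
  obtain ⟨I, rfl, hI⟩ := exists_mk0_eq_forall_isGood K N₀ c
  obtain ⟨I, hI0⟩ := I
  rw [MonoidHom.one_apply]
  induction I using UniqueFactorizationMonoid.induction_on_prime with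
  | h₁ => exact absurd rfl (nonZeroDivisors.ne_zero hI0)
  | h₂ I hu =>
    have : (⟨I, hI0⟩ : (Ideal (𝓞 K))⁰) = 1 := Subtype.ext ((Ideal.isUnit_iff.mp hu).trans Ideal.one_eq_top.symm)
    rw [this, map_one, map_one]
  | h₃ I P hI' hP ih =>
    have hI'0 : I ∈ (Ideal (𝓞 K))⁰ := mem_nonZeroDivisors_of_ne_zero hI'
    have hP0 : P ∈ (Ideal (𝓞 K))⁰ := mem_nonZeroDivisors_of_ne_zero hP.ne_zero
    have hPp : P.IsPrime := Ideal.isPrime_of_prime hP
    have : (⟨P * I, hI0⟩ : (Ideal (𝓞 K))⁰) = ⟨P, hP0⟩ * ⟨I, hI'0⟩ := rfl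
    rw [this, map_mul, map_mul, h ⟨P, hP0⟩ hPp (hI P hPp (dvd_mul_right _ _)),
      ih hI'0 (fun Q hQ hd => hI Q hQ (hd.mul_left P)), one_mul]

end Fermat.Agent.S14.DegOne
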