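import Fermat.Prelude.Def_ClassGroup_GaloisAction
import Fermat.Agent.S14.Genus.Units

/-!
# The ambiguous class number inequality

For an unramified cyclic extension `L/K` of prime degree `p` with `K` totally complex, the norm
map of class groups is not surjective, so some nonzero `ℤ/p`-valued character of `Cl K` kills all
relative norms of ideals of `L`.
-/

set_option autoImplicit false

open scoped NumberField nonZeroDivisors Pointwise

namespace Fermat.Agent.S14.Genus

section Norm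

variable (K L : Type*) [Field K] [NumberField K] [Field L] [NumberField L] [Algebra K L]

/-- The relative norm on nonzero ideals. -/
noncomputable def normIdeal : (Ideal (𝓞 L))⁰ →* (Ideal (𝓞 K))⁰ where
  toFun I := ⟨Ideal.relNorm (𝓞 K) I.1, mem_nonZeroDivisors_iff_ne_zero.2 fun h =>
    nonZeroDivisors.coe_ne_zero I (Ideal.relNorm_eq_bot_iff.1 h)⟩
  map_one' := Subtype.ext (map_one (Ideal.relNorm (𝓞 K)))
  map_mul' I J := Subtype.ext (map_mul (Ideal.relNorm (𝓞 K)) I.1 J.1)

lemma mk0_normIdeal_eq {I J : (Ideal (𝓞 L))⁰} (h : ClassGroup.mk0 I = ClassGroup.mk0 J) :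
    ClassGroup.mk0 (normIdeal K L I) = ClassGroup.mk0 (normIdeal K L J) := by
  obtain ⟨x, y, hx, hy, e⟩ := ClassGroup.mk0_eq_mk0_iff.1 h
  refine ClassGroup.mk0_eq_mk0_iff.2 ⟨Algebra.intNorm (𝓞 K) (𝓞 L) x,
    Algebra.intNorm (𝓞 K) (𝓞 L) y, (Algebra.intNorm_ne_zero).2 hx,
    (Algebra.intNorm_ne_zero).2 hy, ?_⟩
  have := congrArg (Ideal.relNorm (𝓞 K)) e
  rwa [map_mul, map_mul, Ideal.relNorm_singleton, Ideal.relNorm_singleton] at this

/-- The norm on class groups. -/
noncomputable def normClass : ClassGroup (𝓞 L) →* ClassGroup (𝓞 K) :=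
  MonoidHom.mk'
    (fun C => ClassGroup.mk0 (normIdeal K L (Function.surjInv ClassGroup.mk0_surjective C)))
    fun C D => by
      rw [← map_mul, ← map_mul]
      apply mk0_normIdeal_eq
      rw [map_mul]
      simp only [Function.surjInv_eq]

lemma normClass_mk0 (I : (Ideal (𝓞 L))⁰) :
    normClass K L (ClassGroup.mk0 I) = ClassGroup.mk0 (normIdeal K L I) :=
  mk0_normIdeal_eq K L (Function.surjInv_eq _ _)

/-- Extension of classes. -/
noncomputable def extClass : ClassGroup (𝓞 K) →* ClassGroup (𝓞 L) :=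
  ClassGroup.extendedHom (𝓞 K) (𝓞 L)

lemma normClass_extClass [IsGalois K L] (C : ClassGroup (𝓞 K)) :
    normClass K L (extClass K L C) = C ^ Module.finrank K L := by
  obtain ⟨I, rfl⟩ := ClassGroup.mk0_surjective C
  rw [extClass, ClassGroup.extendedHom_mk0, normClass_mk0, ← map_pow]
  congr 1
  refine Subtype.ext ?_
  rw [SubmonoidClass.coe_pow, IsFractionRing.finrank_eq (𝓞 K) K (𝓞 L) L]
  exact Ideal.relNorm_algebraMap (𝓞 L) I.1

end Norm

variable (p : ℕ) [hp : Fact p.Prime] {K L : Type} [Field K] [NumberField K] [Field L]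
  [NumberField L] [Algebra K L] [IsGalois K L]

/-- Galois-invariant ideals are extended. -/
lemma exists_map_eq_of_fixed
    (hunr : ∀ Q : Ideal (𝓞 L), Q.IsPrime → Q ≠ ⊥ →
      ¬ Q ^ 2 ∣ (Q.under (𝓞 K)).map (algebraMap (𝓞 K) (𝓞 L)))
    (I : Ideal (𝓞 L)) (hI : I ≠ ⊥) (hfix : ∀ h : Gal(L/K), h • I = I) :
    ∃ J : Ideal (𝓞 K), J ≠ ⊥ ∧ J.map (algebraMap (𝓞 K) (𝓞 L)) = I := by
  classical
  induction hn : Ideal.absNorm I using Nat.strong_induction_on generalizing I with
  | _ n ih =>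
    by_cases htop : I = ⊤
    · exact ⟨⊤, top_ne_bot, by rw [htop, Ideal.map_top]⟩
    obtain ⟨Q, hQ, hIQ⟩ := Ideal.exists_le_maximal I htop
    have hQ0 : Q ≠ ⊥ := fun h => hI (le_bot_iff.1 (h ▸ hIQ))
    set P := Q.under (𝓞 K)
    have : P.IsPrime := Ideal.IsPrime.under (𝓞 K) Q
    have hP0 : P ≠ ⊥ := Ideal.under_ne_bot (𝓞 K) hQ0
    have hPmax : P.IsMaximal := Ideal.IsPrime.isMaximal this hP0
    set B := P.map (algebraMap (𝓞 K) (𝓞 L))
    have hB0 : B ≠ ⊥ := (Ideal.map_eq_bot_iff_of_injective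
      (FaithfulSMul.algebraMap_injective _ _)).not.2 hP0
    have hdvd : B ∣ I := by
      have hsq : (UniqueFactorizationMonoid.normalizedFactors B).Nodup := by
        rw [← UniqueFactorizationMonoid.squarefree_iff_nodup_normalizedFactors hB0,
          squarefree_iff_irreducible_sq_not_dvd_of_ne_zero hB0]
        intro q hq hdvd
        have hqp : q.IsPrime := Ideal.isPrime_of_prime hq.prime
        have hqB : B ≤ q := Ideal.le_of_dvd ((dvd_mul_right q q).trans hdvd)
        have hqu : q.under (𝓞 K) = P :=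
          (hPmax.eq_of_le (Ideal.IsPrime.ne_top (Ideal.IsPrime.under (𝓞 K) q))
            (Ideal.map_le_iff_le_comap.1 hqB)).symm
        refine hunr q hqp hq.ne_zero ?_
        rw [hqu, sq]
        exact hdvd
      rw [← associated_iff_eq.1 (UniqueFactorizationMonoid.prod_normalizedFactors hB0)]
      refine Multiset.prod_primes_dvd I
        (fun q hq => UniqueFactorizationMonoid.prime_of_normalized_factor q hq)
        (fun q hq => ?_) (fun q => ?_)
      · have hqprime := UniqueFactorizationMonoid.prime_of_normalized_factor q hq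
        have : q.IsPrime := Ideal.isPrime_of_prime hqprime
        have hqB : B ≤ q := Ideal.le_of_dvd (UniqueFactorizationMonoid.dvd_of_mem_normalizedFactors hq)
        have hqu : q.under (𝓞 K) = P :=
          (hPmax.eq_of_le (Ideal.IsPrime.ne_top (Ideal.IsPrime.under (𝓞 K) q))
            (Ideal.map_le_iff_le_comap.1 hqB)).symm
        obtain ⟨h, hh⟩ := Algebra.IsInvariant.exists_smul_of_under_eq (𝓞 K) (𝓞 L) Gal(L/K) Q q
          hqu.symm
        rw [Ideal.dvd_iff_le, hh, ← hfix h]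
        exact Ideal.map_mono hIQ
      · simp only [associated_iff_eq]
        rw [← Multiset.count]
        exact Multiset.nodup_iff_count_le_one.1 hsq q
    obtain ⟨I', hI'⟩ := hdvd
    have hI'0 : I' ≠ ⊥ := fun h => hI (by rw [hI', h, Ideal.mul_bot])
    have hBfix : ∀ h : Gal(L/K), h • B = B := by
      intro h
      show (P.map (algebraMap (𝓞 K) (𝓞 L))).map (MulSemiringAction.toRingHom _ (𝓞 L) h) = B
      rw [Ideal.map_map]
      congr 1
      exact RingHom.ext fun x => smul_algebraMap h x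
    have hI'fix : ∀ h : Gal(L/K), h • I' = I' := by
      intro h
      have := hfix h
      rw [hI', smul_mul', hBfix] at this
      exact mul_left_cancel₀ hB0 this
    have hlt : Ideal.absNorm I' < n := by
      rw [← hn, hI', map_mul]
      have h1 : Ideal.absNorm B ≠ 1 := fun h => by
        have hBQ : B ≤ Q := Ideal.map_le_iff_le_comap.2 le_rfl
        exact hQ.ne_top (top_le_iff.1 (Ideal.absNorm_eq_one_iff.1 h ▸ hBQ))
      have h2 : Ideal.absNorm B ≠ 0 := fun h => hB0 (Ideal.absNorm_eq_zero_iff.1 h)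
      have h3 : Ideal.absNorm I' ≠ 0 := fun h => hI'0 (Ideal.absNorm_eq_zero_iff.1 h)
      nlinarith [Nat.pos_of_ne_zero h3,
        show 2 ≤ Ideal.absNorm B by omega]
    obtain ⟨J, hJ0, hJ⟩ := ih _ hlt I' hI'0 hI'fix rfl
    exact ⟨P * J, mul_ne_zero hP0 hJ0, by rw [Ideal.map_mul, hJ, ← hI']⟩

variable {p}

lemma smul_eq_of_gen (hdeg : Module.finrank K L = p) {g : Gal(L/K)} (hg : g ≠ 1)
    {α : Type*} [MulAction Gal(L/K) α] {a : α} (ha : g • a = a) (h : Gal(L/K)) : h • a = a :=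
  MulAction.mem_stabilizer_iff.1
    ((Subgroup.zpowers_le.2 (MulAction.mem_stabilizer_iff.2 ha)) (zpowers_eq_top hdeg hg h))

/-- Hilbert 90 in the form `c (g d) b = d (g c) a`. -/
lemma exists_ratio_of_intNorm_eq (hdeg : Module.finrank K L = p) {g : Gal(L/K)} (hg : g ≠ 1)
    {a b : 𝓞 L} (hb : b ≠ 0)
    (h : Algebra.intNorm (𝓞 K) (𝓞 L) a = Algebra.intNorm (𝓞 K) (𝓞 L) b) :
    ∃ c d : 𝓞 L, c ≠ 0 ∧ d ≠ 0 ∧ c * g • d * b = d * g • c * a := by
  have hcyc : IsCyclic Gal(L/K) := ⟨⟨g, zpowers_eq_top hdeg hg⟩⟩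
  have hb' : (b : L) ≠ 0 := NumberField.RingOfIntegers.coe_ne_zero_iff.2 hb
  have hn : Algebra.norm K ((a : L) / b) = 1 := by
    have := congrArg (algebraMap (𝓞 K) K) h
    rw [Algebra.algebraMap_intNorm (L := L), Algebra.algebraMap_intNorm (L := L)] at this
    rw [div_eq_mul_inv, map_mul, Algebra.norm_inv, ← div_eq_mul_inv]
    rw [this, div_self (Algebra.norm_ne_zero_iff.2 hb')]
  obtain ⟨y, hy⟩ := groupCohomology.exists_div_of_norm_eq_one (zpowers_eq_top hdeg hg) hn
  obtain ⟨c, d, hd, hcd⟩ := IsFractionRing.div_surjective (A := 𝓞 L) (y : L)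
  have hd0 : d ≠ 0 := nonZeroDivisors.ne_zero hd
  have hd' : (d : L) ≠ 0 := NumberField.RingOfIntegers.coe_ne_zero_iff.2 hd0
  have hc0 : c ≠ 0 := by
    rintro rfl
    rw [map_zero, zero_div] at hcd
    exact y.ne_zero hcd.symm
  have hc' : (c : L) ≠ 0 := NumberField.RingOfIntegers.coe_ne_zero_iff.2 hc0
  refine ⟨c, d, hc0, hd0, NumberField.RingOfIntegers.coe_injective ?_⟩
  have hgd : g (d : L) ≠ 0 := (map_ne_zero _).2 hd'
  have hgc : g (c : L) ≠ 0 := (map_ne_zero _).2 hc'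
  rw [← hcd, map_div₀] at hy
  change (c : L) * g (d : L) * b = (d : L) * g (c : L) * a
  field_simp at hy
  linear_combination hy

omit hp in
lemma smul_mul_prod_pow_smul (hdeg : Module.finrank K L = p) (g : Gal(L/K)) (d : 𝓞 L) :
    g • d * g • ∏ i ∈ Finset.Ico 1 p, g ^ i • d = d * ∏ i ∈ Finset.Ico 1 p, g ^ i • d := by
  have hp1 : 1 ≤ p := hdeg ▸ Module.finrank_pos
  have hfix : g • (∏ i ∈ Finset.range p, g ^ i • d) = ∏ i ∈ Finset.range p, g ^ i • d := by
    have h : (∏ i ∈ Finset.range (p + 1), g ^ i • d) = (∏ i ∈ Finset.range p, g ^ i • d) * d := by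
      rw [Finset.prod_range_succ, pow_prime_eq_one hdeg, one_smul]
    rw [Finset.prod_range_succ', pow_zero, one_smul] at h
    rcases eq_or_ne d 0 with rfl | hd
    · simp [show p ≠ 0 by omega]
    rw [Finset.smul_prod']
    refine (Finset.prod_congr rfl fun i _ => ?_).trans (mul_right_cancel₀ hd h)
    rw [smul_smul, ← pow_succ']
  have hsplit : (∏ i ∈ Finset.range p, g ^ i • d) = d * ∏ i ∈ Finset.Ico 1 p, g ^ i • d := by
    rw [Finset.range_eq_Ico, Finset.prod_eq_prod_Ico_succ_bot hp1, pow_zero, one_smul]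
  rwa [hsplit, smul_mul'] at hfix

/-- Kernel of the norm residue of an ambiguous class: classes extended from `K`. -/
lemma mem_range_ext (hdeg : Module.finrank K L = p) {g : Gal(L/K)} (hg : g ≠ 1)
    (hunr : ∀ Q : Ideal (𝓞 L), Q.IsPrime → Q ≠ ⊥ →
      ¬ Q ^ 2 ∣ (Q.under (𝓞 K)).map (algebraMap (𝓞 K) (𝓞 L)))
    (I : (Ideal (𝓞 L))⁰) {a b : 𝓞 L} (hb : b ≠ 0)
    (hab : Ideal.span {b} * g • (I : Ideal (𝓞 L)) = Ideal.span {a} * I)
    (h : Algebra.intNorm (𝓞 K) (𝓞 L) a = Algebra.intNorm (𝓞 K) (𝓞 L) b) :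
    ClassGroup.mk0 I ∈ (extClass K L).range := by
  obtain ⟨c, d, hc, hd, hcd⟩ := exists_ratio_of_intNorm_eq hdeg hg hb h
  set d' := ∏ i ∈ Finset.Ico 1 p, g ^ i • d with hd'_def
  have hd' : d' ≠ 0 := Finset.prod_ne_zero_iff.2 fun i _ h => hd ((smul_eq_zero_iff_eq _).1 h)
  have hI := nonZeroDivisors.coe_ne_zero I
  set J : Ideal (𝓞 L) := Ideal.span {c * d'} * I with hJ_def
  have hJ0 : J ≠ ⊥ := mul_ne_zero (by simpa using mul_ne_zero hc hd') hI
  have hfix : g • J = J := by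
    have hgd : g • d ≠ 0 := fun h => hd ((smul_eq_zero_iff_eq g).1 h)
    have hne : Ideal.span {b * g • d} ≠ (0 : Ideal (𝓞 L)) := by simpa using mul_ne_zero hb hgd
    apply mul_left_cancel₀ hne
    have key : g • d * g • c * (g • d') * a = b * g • d * (c * d') := by
      have e := smul_mul_prod_pow_smul hdeg g d
      linear_combination (g • c) * a * e + d' * hcd.symm
    have hgJ : g • J = Ideal.span {g • c * g • d'} * g • (I : Ideal (𝓞 L)) := by
      rw [hJ_def, smul_mul', Ideal.smul_closure, Set.smul_set_singleton, smul_mul']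
    rw [hgJ, hJ_def, ← mul_assoc, ← mul_assoc, Ideal.span_singleton_mul_span_singleton,
      Ideal.span_singleton_mul_span_singleton,
      show b * g • d * (g • c * g • d') = (g • d * g • c * g • d') * b by ring,
      ← Ideal.span_singleton_mul_span_singleton, mul_assoc, hab, ← mul_assoc,
      Ideal.span_singleton_mul_span_singleton, key]
  obtain ⟨J₀, hJ₀, hJJ⟩ := exists_map_eq_of_fixed hunr J hJ0
    (fun h => smul_eq_of_gen hdeg hg hfix h)
  refine ⟨ClassGroup.mk0 ⟨J₀, mem_nonZeroDivisors_iff_ne_zero.2 hJ₀⟩, ?_⟩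
  rw [extClass, ClassGroup.extendedHom_mk0]
  refine ClassGroup.mk0_eq_mk0_iff.2 ⟨1, c * d', one_ne_zero, mul_ne_zero hc hd', ?_⟩
  rw [Ideal.span_singleton_one, ← Ideal.one_eq_top, one_mul]
  exact hJJ

/-- `g` acting on classes. -/
noncomputable def galClass (g : Gal(L/K)) : ClassGroup (𝓞 L) →* ClassGroup (𝓞 L) :=
  (ClassGroup.mulEquiv (MulSemiringAction.toRingEquiv _ (𝓞 L) g)).toMonoidHom

omit [NumberField K] [IsGalois K L] in
lemma galClass_mk0 (g : Gal(L/K)) (I : (Ideal (𝓞 L))⁰) :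
    galClass g (ClassGroup.mk0 I) =
      ClassGroup.mk0 (Ideal.mapNonZero (MulSemiringAction.toRingEquiv _ (𝓞 L) g) I) :=
  ClassGroup.mulEquiv_mk0 _ I

lemma exists_witness (g : Gal(L/K)) {C : ClassGroup (𝓞 L)} (hC : galClass g C = C) :
    ∃ (I : (Ideal (𝓞 L))⁰) (a b : 𝓞 L) (u : (𝓞 K)ˣ), ClassGroup.mk0 I = C ∧ a ≠ 0 ∧ b ≠ 0 ∧
      Ideal.span {b} * g • (I : Ideal (𝓞 L)) = Ideal.span {a} * I ∧
      Algebra.intNorm (𝓞 K) (𝓞 L) b * u = Algebra.intNorm (𝓞 K) (𝓞 L) a := by
  obtain ⟨I, rfl⟩ := ClassGroup.mk0_surjective C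
  rw [galClass_mk0] at hC
  obtain ⟨b, a, hb, ha, e⟩ := ClassGroup.mk0_eq_mk0_iff.1 hC
  have e' : Ideal.span {b} * g • (I : Ideal (𝓞 L)) = Ideal.span {a} * I := e
  have hn := congrArg (Ideal.relNorm (𝓞 K)) e'
  rw [map_mul, map_mul, Ideal.relNorm_singleton, Ideal.relNorm_singleton, Ideal.relNorm_smul]
    at hn
  have hnI : Ideal.relNorm (𝓞 K) (I : Ideal (𝓞 L)) ≠ 0 := fun h =>
    nonZeroDivisors.coe_ne_zero I (Ideal.relNorm_eq_bot_iff.1 h)
  obtain ⟨u, hu⟩ := Ideal.span_singleton_eq_span_singleton.1 (mul_right_cancel₀ hnI hn)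
  exact ⟨I, a, b, u, rfl, ha, hb, e', hu⟩

/-- The ambiguous class number inequality. -/
theorem card_fixed_mul_le (hdeg : Module.finrank K L = p) {g : Gal(L/K)} (hg : g ≠ 1)
    (hunr : ∀ Q : Ideal (𝓞 L), Q.IsPrime → Q ≠ ⊥ →
      ¬ Q ^ 2 ∣ (Q.under (𝓞 K)).map (algebraMap (𝓞 K) (𝓞 L)))
    (hQ : (normUnits K L).range.index ≠ 0) :
    Nat.card {C : ClassGroup (𝓞 L) // galClass g C = C} ≤
      (normUnits K L).range.index * Nat.card (extClass K L).range := by
  classical
  let T := {C : ClassGroup (𝓞 L) // galClass g C = C}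
  choose I a b u hI ha hb hab hu using fun C : T => exists_witness g C.2
  let q : T → (𝓞 K)ˣ ⧸ (normUnits K L).range := fun C => QuotientGroup.mk (u C)
  have : Nonempty T := ⟨⟨1, map_one _⟩⟩
  have hmain : ∀ C C' : T, q C = q C' → C'.1 * C.1⁻¹ ∈ (extClass K L).range := by
    intro C C' hq
    obtain ⟨v, hv⟩ := QuotientGroup.eq.1 hq
    have huu : u C' = u C * normUnits K L v := by rw [hv, mul_inv_cancel_left]
    obtain ⟨J, hJ⟩ := ClassGroup.mk0_surjective C.1⁻¹
    have hprin : (((I C * J : (Ideal (𝓞 L))⁰)) : Ideal (𝓞 L)).IsPrincipal := by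
      rw [← ClassGroup.mk0_eq_one_iff (I C * J).2]
      show ClassGroup.mk0 (I C * J) = 1
      rw [map_mul, hI, hJ, mul_inv_cancel]
    obtain ⟨z, hz⟩ := hprin
    have hz' : (I C : Ideal (𝓞 L)) * J = Ideal.span {z} := hz
    have hz0 : z ≠ 0 := fun h => nonZeroDivisors.coe_ne_zero (I C * J) (by
      rw [Submonoid.coe_mul, hz', h, Ideal.span_singleton_zero]; rfl)
    have hgz : g • (I C : Ideal (𝓞 L)) * g • (J : Ideal (𝓞 L)) = Ideal.span {g • z} := by
      rw [← smul_mul', hz', Ideal.smul_closure, Set.smul_set_singleton]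
    -- witness for `J`
    have hJw : Ideal.span {a C * z} * g • (J : Ideal (𝓞 L)) = Ideal.span {b C * g • z} * J := by
      rw [← Ideal.span_singleton_mul_span_singleton, ← Ideal.span_singleton_mul_span_singleton,
        ← hz', ← hgz]
      calc Ideal.span {a C} * ((I C : Ideal (𝓞 L)) * J) * g • (J : Ideal (𝓞 L))
          = Ideal.span {a C} * (I C : Ideal (𝓞 L)) * (g • (J : Ideal (𝓞 L))) * J := by ring
        _ = Ideal.span {b C} * g • (I C : Ideal (𝓞 L)) * (g • (J : Ideal (𝓞 L))) * J := by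
          rw [hab]
        _ = _ := by ring
    have hmem := mem_range_ext hdeg hg hunr (I C' * J) (b := b C' * (a C * z) * v)
      (a := a C' * (b C * g • z))
      (mul_ne_zero (mul_ne_zero (hb C') (mul_ne_zero (ha C) hz0)) v.ne_zero) (by
        rw [Submonoid.coe_mul, smul_mul', ← Ideal.span_singleton_mul_span_singleton,
          Ideal.span_singleton_eq_top.2 v.isUnit, ← Ideal.one_eq_top, mul_one,
          ← Ideal.span_singleton_mul_span_singleton (b C'),
          ← Ideal.span_singleton_mul_span_singleton (a C')]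
        calc Ideal.span {b C'} * Ideal.span {a C * z} *
              (g • (I C' : Ideal (𝓞 L)) * g • (J : Ideal (𝓞 L)))
            = (Ideal.span {b C'} * g • (I C' : Ideal (𝓞 L))) *
                (Ideal.span {a C * z} * g • (J : Ideal (𝓞 L))) := by ring
          _ = _ := by rw [hab, hJw]; ring) (by
        have hgn : Algebra.intNorm (𝓞 K) (𝓞 L) (g • z) = Algebra.intNorm (𝓞 K) (𝓞 L) z :=
          Algebra.intNorm_map_algEquiv (x := z) (σ := MulSemiringAction.toAlgEquiv (𝓞 K) (𝓞 L) g)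
        have hnv : Algebra.intNorm (𝓞 K) (𝓞 L) (v : 𝓞 L) = (normUnits K L v : (𝓞 K)ˣ) := rfl
        rw [map_mul, map_mul, map_mul, map_mul, map_mul, hgn, hnv, ← hu C', ← hu C, huu,
          Units.val_mul]
        ring)
    rwa [map_mul, hI, hJ] at hmem
  let F : T → ((𝓞 K)ˣ ⧸ (normUnits K L).range) × (extClass K L).range := fun C =>
    (q C, ⟨C.1 * (Function.invFun q (q C)).1⁻¹,
      hmain _ _ (Function.invFun_eq ⟨C, rfl⟩)⟩)
  have hF : Function.Injective F := by
    intro C C' h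
    obtain ⟨h1, h2⟩ := Prod.ext_iff.1 h
    have h2' := congrArg Subtype.val h2
    simp only [F] at h1 h2'
    rw [h1] at h2'
    exact Subtype.ext (mul_right_cancel h2')
  have : Finite ((𝓞 K)ˣ ⧸ (normUnits K L).range) := Nat.finite_of_card_ne_zero hQ
  calc Nat.card T ≤ Nat.card (((𝓞 K)ˣ ⧸ (normUnits K L).range) × (extClass K L).range) :=
        Nat.card_le_card_of_injective F hF
    _ = _ := by rw [Nat.card_prod]; rfl

/-- `H¹` of the units injects into the capitulation kernel. -/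
theorem relIndex_le_card_ker (hdeg : Module.finrank K L = p) {g : Gal(L/K)} (hg : g ≠ 1)
    (hunr : ∀ Q : Ideal (𝓞 L), Q.IsPrime → Q ≠ ⊥ →
      ¬ Q ^ 2 ∣ (Q.under (𝓞 K)).map (algebraMap (𝓞 K) (𝓞 L))) :
    (unitsTwist K L g).range.relIndex (normUnits K L).ker ≤ Nat.card (extClass K L).ker := by
  classical
  have key : ∀ v : (normUnits K L).ker, ∃ (ε : 𝓞 L) (J : (Ideal (𝓞 K))⁰), ε ≠ 0 ∧
      ((v : (𝓞 L)ˣ) : 𝓞 L) * g • ε = ε ∧
      (J : Ideal (𝓞 K)).map (algebraMap (𝓞 K) (𝓞 L)) = Ideal.span {ε} := by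
    intro v
    have hn : Algebra.intNorm (𝓞 K) (𝓞 L) ((v : (𝓞 L)ˣ) : 𝓞 L) =
        Algebra.intNorm (𝓞 K) (𝓞 L) 1 := by
      rw [map_one]; exact congrArg Units.val (MonoidHom.mem_ker.1 v.2)
    obtain ⟨c, d, hc, hd, hcd⟩ := exists_ratio_of_intNorm_eq hdeg hg one_ne_zero hn
    set d' := ∏ i ∈ Finset.Ico 1 p, g ^ i • d with hd'_def
    have hd' : d' ≠ 0 := Finset.prod_ne_zero_iff.2 fun i _ h => hd ((smul_eq_zero_iff_eq _).1 h)
    have hε : ((v : (𝓞 L)ˣ) : 𝓞 L) * g • (c * d') = c * d' := by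
      apply mul_left_cancel₀ (show g • d ≠ 0 from fun h => hd ((smul_eq_zero_iff_eq g).1 h))
      have e := smul_mul_prod_pow_smul hdeg g d
      rw [mul_one] at hcd
      rw [smul_mul']
      linear_combination ((v : (𝓞 L)ˣ) : 𝓞 L) * g • c * e + d' * hcd.symm
    have hfix : g • Ideal.span {c * d'} = Ideal.span {c * d'} := by
      rw [Ideal.smul_closure, Set.smul_set_singleton]
      conv_rhs => rw [← hε, Ideal.span_singleton_mul_left_unit (v : (𝓞 L)ˣ).isUnit]
    obtain ⟨J, hJ0, hJ⟩ := exists_map_eq_of_fixed hunr _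
      (by simpa using mul_ne_zero hc hd') (fun h => smul_eq_of_gen hdeg hg hfix h)
    exact ⟨c * d', ⟨J, mem_nonZeroDivisors_iff_ne_zero.2 hJ0⟩, mul_ne_zero hc hd', hε, hJ⟩
  choose ε J hε0 hε hJ using key
  have hmem : ∀ v, ClassGroup.mk0 (J v) ∈ (extClass K L).ker := by
    intro v
    rw [MonoidHom.mem_ker, extClass, ClassGroup.extendedHom_mk0, ClassGroup.mk0_eq_one_iff]
    exact ⟨ε v, hJ v⟩
  let S := (unitsTwist K L g).range.subgroupOf (normUnits K L).ker
  let F : (normUnits K L).ker ⧸ S → (extClass K L).ker := fun x =>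
    ⟨ClassGroup.mk0 (J x.out), hmem _⟩
  refine Nat.card_le_card_of_injective F fun x y h => ?_
  rw [← QuotientGroup.out_eq' x, ← QuotientGroup.out_eq' y, QuotientGroup.eq]
  set v := x.out
  set v' := y.out
  obtain ⟨k, l, hk, hl, e⟩ := ClassGroup.mk0_eq_mk0_iff.1 (congrArg Subtype.val h)
  have e' := congrArg (Ideal.map (algebraMap (𝓞 K) (𝓞 L))) e
  rw [Ideal.map_mul, Ideal.map_mul, hJ, hJ, Ideal.map_span, Ideal.map_span, Set.image_singleton,
    Set.image_singleton, Ideal.span_singleton_mul_span_singleton,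
    Ideal.span_singleton_mul_span_singleton] at e'
  obtain ⟨w, hw⟩ := Ideal.span_singleton_eq_span_singleton.1 e'
  refine Subgroup.mem_subgroupOf.2 ⟨w⁻¹, ?_⟩
  have hgw := congrArg (g • ·) hw
  simp only [smul_mul', smul_algebraMap] at hgw
  have hkne : algebraMap (𝓞 K) (𝓞 L) k * g • ε v ≠ 0 :=
    mul_ne_zero ((map_ne_zero_iff _ (FaithfulSMul.algebraMap_injective _ _)).2 hk)
      (fun h => hε0 v ((smul_eq_zero_iff_eq g).1 h))
  have hvw : v.1 * w = v'.1 * (unitsTwist K L g w * w) := by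
    apply Units.ext
    rw [Units.val_mul, Units.val_mul v'.1, coe_unitsTwist_mul]
    apply mul_left_cancel₀ hkne
    linear_combination hw + (algebraMap (𝓞 K) (𝓞 L) k) * w * hε v
      - (algebraMap (𝓞 K) (𝓞 L) l) * hε v' - ((v'.1 : (𝓞 L)ˣ) : 𝓞 L) * hgw
  rw [Subgroup.coe_mul, Subgroup.coe_inv, map_inv]
  rw [← mul_assoc, mul_left_inj] at hvw
  rw [hvw, mul_inv_rev, inv_mul_cancel_right]

/-- A nonzero element of a vector space is detected by a functional. -/
lemma exists_functional {F Q : Type*} [Field F] [AddCommGroup Q] [Module F Q] {x : Q}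
    (hx : x ≠ 0) : ∃ f : Q →+ F, f x ≠ 0 := by
  by_contra h
  refine hx ((Module.forall_dual_apply_eq_zero_iff F x).1 fun f => ?_)
  by_contra hf
  exact h ⟨f.toAddMonoidHom, hf⟩

omit hp in
/-- A nonzero element of an abelian group of prime exponent is detected by a character. -/
lemma exists_character (p : ℕ) [Fact p.Prime] {Q : Type*} [AddCommGroup Q]
    (hexp : ∀ x : Q, p • x = 0) {x : Q} (hx : x ≠ 0) : ∃ f : Q →+ ZMod p, f x ≠ 0 :=
  @exists_functional (ZMod p) Q _ _ (AddCommGroup.zmodModule hexp) x hx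

variable (p) (K L)

/-- A nonzero character of `Cl K` killing the norms from an unramified cyclic degree-`p` extension
(any prime `p`). `hunr`: no prime of `L` divides the extension of the prime below it twice. -/
theorem exists_classGroupHom_kills_norms_of_unramified (hdeg : Module.finrank K L = p)
    [NumberField.IsTotallyComplex K]
    (hunr : ∀ Q : Ideal (𝓞 L), Q.IsPrime → Q ≠ ⊥ →
      ¬ Q ^ 2 ∣ (Q.under (𝓞 K)).map (algebraMap (𝓞 K) (𝓞 L))) :
    ∃ ψ : ClassGroup (𝓞 K) →* Multiplicative (ZMod p), ψ ≠ 1 ∧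
      ∀ (I : Ideal (𝓞 L)) (h : Ideal.relNorm (𝓞 K) I ∈ (Ideal (𝓞 K))⁰),
        ψ (ClassGroup.mk0 ⟨Ideal.relNorm (𝓞 K) I, h⟩) = 1 := by
  classical
  have hnt : Nontrivial Gal(L/K) := by
    rw [← Finite.one_lt_card_iff_nontrivial, IsGalois.card_aut_eq_finrank, hdeg]
    exact hp.out.one_lt
  obtain ⟨g, hg⟩ := exists_ne (1 : Gal(L/K))
  obtain ⟨hidx, hQ⟩ := units_index hdeg hg
  set N := normClass K L
  have hN : N.range ≠ ⊤ := by
    intro htop
    let τ : ClassGroup (𝓞 L) →* ClassGroup (𝓞 L) := galClass g / MonoidHom.id _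
    have hτker : Nat.card τ.ker = Nat.card {C : ClassGroup (𝓞 L) // galClass g C = C} :=
      Nat.card_congr (Equiv.subtypeEquivRight fun C => by
        simp [τ, MonoidHom.mem_ker, div_eq_one])
    have hle : τ.range ≤ N.ker := by
      rintro _ ⟨C, rfl⟩
      obtain ⟨I, rfl⟩ := ClassGroup.mk0_surjective C
      rw [MonoidHom.mem_ker]
      simp only [τ, MonoidHom.div_apply, MonoidHom.id_apply, map_div, galClass_mk0]
      rw [normClass_mk0, normClass_mk0, div_eq_one]
      congr 1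
      exact Subtype.ext (Ideal.relNorm_smul (𝓞 K) g (I : Ideal (𝓞 L)))
    have h1 : Nat.card (ClassGroup (𝓞 K)) ≤
        Nat.card {C : ClassGroup (𝓞 L) // galClass g C = C} := by
      rw [← hτker, ← Subgroup.index_range (f := τ)]
      have : N.ker.index = Nat.card (ClassGroup (𝓞 K)) := by
        rw [Subgroup.index_ker, htop, Subgroup.card_top]
      rw [← this]
      exact Nat.le_of_dvd (Nat.pos_of_ne_zero Subgroup.FiniteIndex.index_ne_zero)
        (Subgroup.index_dvd_of_le hle)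
    have h2 := card_fixed_mul_le hdeg hg hunr hQ
    have h3 := relIndex_le_card_ker hdeg hg hunr
    rw [hidx] at h3
    have h4 : Nat.card (extClass K L).range * Nat.card (extClass K L).ker =
        Nat.card (ClassGroup (𝓞 K)) := by
      rw [← Subgroup.index_ker, mul_comm, Subgroup.card_mul_index]
    have h5 : 0 < Nat.card (ClassGroup (𝓞 K)) := Nat.card_pos
    have h6 := Nat.pos_of_ne_zero hQ
    have h7 := hp.out.two_le
    have h8 : Nat.card (ClassGroup (𝓞 K)) * (p * (normUnits K L).range.index) ≤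
        Nat.card (ClassGroup (𝓞 K)) * (normUnits K L).range.index :=
      calc _ ≤ ((normUnits K L).range.index * Nat.card (extClass K L).range) *
            Nat.card (extClass K L).ker := Nat.mul_le_mul (h1.trans h2) h3
        _ = _ := by rw [mul_assoc, h4, mul_comm]
    have := Nat.le_of_mul_le_mul_left h8 h5
    nlinarith
  let Q := Additive (ClassGroup (𝓞 K) ⧸ N.range)
  have hexp : ∀ x : Q, p • x = 0 := by
    intro x
    obtain ⟨C, hC⟩ := QuotientGroup.mk_surjective (Additive.toMul x)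
    apply Additive.toMul.injective
    rw [toMul_nsmul, ← hC, ← QuotientGroup.mk_pow, toMul_zero, QuotientGroup.eq_one_iff]
    exact ⟨extClass K L C, by rw [normClass_extClass, hdeg]⟩
  obtain ⟨C₀, hC₀⟩ : ∃ C, C ∉ N.range := by
    by_contra h
    push Not at h
    exact hN (eq_top_iff.2 fun C _ => h C)
  have hne : (Additive.ofMul (QuotientGroup.mk C₀) : Q) ≠ 0 := fun h =>
    hC₀ ((QuotientGroup.eq_one_iff _).1 h)
  obtain ⟨φ, hφ⟩ := exists_character p hexp hne
  refine ⟨φ.toMultiplicativeRight.comp (QuotientGroup.mk' N.range),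
    fun h => hφ (congrArg Multiplicative.toAdd (DFunLike.congr_fun h C₀)), ?_⟩
  intro I h
  have hI0 : I ∈ (Ideal (𝓞 L))⁰ := mem_nonZeroDivisors_iff_ne_zero.2 fun h0 =>
    mem_nonZeroDivisors_iff_ne_zero.1 h (by rw [h0]; exact Ideal.relNorm_bot (𝓞 K))
  have hmemN : ClassGroup.mk0 ⟨Ideal.relNorm (𝓞 K) I, h⟩ ∈ N.range :=
    ⟨ClassGroup.mk0 ⟨I, hI0⟩, normClass_mk0 K L _⟩
  rw [MonoidHom.comp_apply, QuotientGroup.mk'_apply, (QuotientGroup.eq_one_iff _).2 hmemN,
    map_one]

/-- A nonzero character of `Cl K` killing the norms from an unramified cyclic extension of odd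
prime degree. -/
theorem exists_classGroupHom_kills_norms (_hp : p ≠ 2) (hdeg : Module.finrank K L = p)
    [NumberField.IsTotallyComplex K]
    (hunr : ∀ Q : Ideal (𝓞 L), Q.IsPrime → Q ≠ ⊥ →
      ¬ Q ^ 2 ∣ (Q.under (𝓞 K)).map (algebraMap (𝓞 K) (𝓞 L))) :
    ∃ ψ : ClassGroup (𝓞 K) →* Multiplicative (ZMod p), ψ ≠ 1 ∧
      ∀ (I : Ideal (𝓞 L)) (h : Ideal.relNorm (𝓞 K) I ∈ (Ideal (𝓞 K))⁰),
        ψ (ClassGroup.mk0 ⟨Ideal.relNorm (𝓞 K) I, h⟩) = 1 :=
  exists_classGroupHom_kills_norms_of_unramified p K L hdeg hunr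

end Fermat.Agent.S14.Genus
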