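import Fermat.Prelude.Def_Stickelberger_Basic
import Mathlib.Algebra.BigOperators.Intervals
import Mathlib.FieldTheory.Finite.Basic
import Mathlib.Tactic.LinearCombination
import Mathlib.Tactic.Ring

/-!
# The Jacobi-sum Stickelberger element on the inverse Teichmüller eigenspace

The element `∑_{0 < c < p/2} σ_c⁻¹` acts on a vector of weight `ω⁻¹` by `∑_{0<c<p/2} c`, which is
`(p² - 1)/8`, a unit modulo an odd prime `p`.
-/

set_option autoImplicit false

open Finset

namespace Fermat.Agent.S14

lemma two_mul_eigenvalueScalar (p : ℕ) :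
    2 * Stickelberger.eigenvalueScalar p = ((p + 1) / 2) * ((p + 1) / 2 - 1) := by
  have h : Stickelberger.eigenvalueScalar p = ∑ i ∈ Finset.range ((p + 1) / 2), i := by
    unfold Stickelberger.eigenvalueScalar
    refine Finset.sum_subset ?_ ?_
    · intro c hc
      simp only [Stickelberger.mem_exponentSet] at hc
      simp only [Finset.mem_range]; omega
    · intro c hc hc'
      simp only [Stickelberger.mem_exponentSet, not_and, not_lt] at hc'
      simp only [Finset.mem_range] at hc
      rcases Nat.eq_zero_or_pos c with h0 | h0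
      · exact h0
      · have := hc' h0; omega
  rw [h, mul_comm, Finset.sum_range_id_mul_two]

lemma eigenvalueScalar_ne_zero {p : ℕ} [Fact p.Prime] (hp : p ≠ 2) :
    (Stickelberger.eigenvalueScalar p : ZMod p) ≠ 0 := by
  have hpp : p.Prime := Fact.out
  obtain ⟨m, hm⟩ := hpp.odd_of_ne_two hp
  intro h0
  have h2 : 2 * Stickelberger.eigenvalueScalar p = (m + 1) * m := by
    rw [two_mul_eigenvalueScalar]
    have : (p + 1) / 2 = m + 1 := by omega
    rw [this]; rfl
  have h3 : ((m : ZMod p) + 1) * m = 0 := by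
    have := congrArg (fun n : ℕ => (n : ZMod p)) h2
    push_cast at this
    rw [h0, mul_zero] at this
    exact this.symm
  have hp0 : (2 : ZMod p) * m + 1 = 0 := by
    have : ((2 * m + 1 : ℕ) : ZMod p) = 0 := by rw [← hm]; simp
    push_cast at this
    exact this
  exact one_ne_zero (α := ZMod p)
    (by linear_combination -4 * h3 + (2 * (m : ZMod p) + 1) * hp0)

variable {p : ℕ} [Fact p.Prime] {A : Type*} [AddCommGroup A] [Module (ZMod p) A]

/-- On a `ω⁻¹`-equivariant functional, the Stickelberger element is multiplication by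
`eigenvalueScalar p`. -/
lemma apply_stickelbergerEnd_of_omega_inv {B : Type*} [AddCommGroup B] [Module (ZMod p) B]
    (ρ : (ZMod p)ˣ →* Module.End (ZMod p) A) (f : A →+ B)
    (hf : ∀ (d : (ZMod p)ˣ) (a : A), f (ρ d a) = ((d⁻¹ : (ZMod p)ˣ) : ZMod p) • f a) (a : A) :
    f (Stickelberger.stickelbergerEnd ρ a) =
      (Stickelberger.eigenvalueScalar p : ZMod p) • f a := by
  simp only [Stickelberger.stickelbergerEnd, LinearMap.sum_apply, map_sum, hf,
    Stickelberger.eigenvalueScalar, Nat.cast_sum, Finset.sum_smul]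
  refine Finset.sum_congr rfl fun c hc => ?_
  rw [Stickelberger.mem_exponentSet] at hc
  have hpp : p.Prime := Fact.out
  have hcop : Nat.Coprime c p :=
    ((Nat.Prime.coprime_iff_not_dvd hpp).mpr fun h => by
      have := Nat.le_of_dvd hc.1 h; omega).symm
  rw [inv_inv, Stickelberger.expUnit, dif_pos hcop, ZMod.coe_unitOfCoprime]

/-- A module killed by the Jacobi-sum Stickelberger element has no `ω⁻¹`-equivariant functional. -/
theorem eq_zero_of_stickelberger_of_omega_inv (hp : p ≠ 2) {B : Type*} [AddCommGroup B]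
    [Module (ZMod p) B] (ρ : (ZMod p)ˣ →* Module.End (ZMod p) A)
    (hρ : Stickelberger.StickelbergerAnnihilates ρ) (f : A →+ B)
    (hf : ∀ (d : (ZMod p)ˣ) (a : A), f (ρ d a) = ((d⁻¹ : (ZMod p)ˣ) : ZMod p) • f a) :
    f = 0 := by
  ext a
  have h := apply_stickelbergerEnd_of_omega_inv ρ f hf a
  rw [hρ a, map_zero, eq_comm, smul_eq_zero] at h
  exact h.resolve_left (eigenvalueScalar_ne_zero hp)

/-- A module killed by the Jacobi-sum Stickelberger element has trivial `ω⁻¹`-eigenspace. -/
theorem eigenvector_eq_zero_of_stickelberger (hp : p ≠ 2)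
    (ρ : (ZMod p)ˣ →* Module.End (ZMod p) A)
    (hρ : Stickelberger.StickelbergerAnnihilates ρ) (a : A)
    (ha : ∀ d : (ZMod p)ˣ, ρ d a = ((d⁻¹ : (ZMod p)ˣ) : ZMod p) • a) : a = 0 := by
  have h : Stickelberger.stickelbergerEnd ρ a = (Stickelberger.eigenvalueScalar p : ZMod p) • a := by
    simp only [Stickelberger.stickelbergerEnd, LinearMap.sum_apply, ha,
      Stickelberger.eigenvalueScalar, Nat.cast_sum, Finset.sum_smul]
    refine Finset.sum_congr rfl fun c hc => ?_
    rw [Stickelberger.mem_exponentSet] at hc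
    have hpp : p.Prime := Fact.out
    have hcop : Nat.Coprime c p :=
      ((Nat.Prime.coprime_iff_not_dvd hpp).mpr fun h => by
        have := Nat.le_of_dvd hc.1 h; omega).symm
    rw [inv_inv, Stickelberger.expUnit, dif_pos hcop, ZMod.coe_unitOfCoprime]
  rw [hρ a, eq_comm, smul_eq_zero] at h
  exact h.resolve_left (eigenvalueScalar_ne_zero hp)

end Fermat.Agent.S14
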