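import Fermat.Prelude.Def_ClassGroup_GaloisAction
import Fermat.Prelude.Def_Stickelberger_Basic
import Fermat.Agent.S14.DegreeOne

/-!
# Factorisation of a Jacobi sum at a degree-one prime of the `p`-th cyclotomic field
-/

set_option autoImplicit false

open scoped NumberField nonZeroDivisors

namespace Fermat.Agent.S14.Jacobi

open JacobiSumStickelberger Ideal

variable {p : ℕ} [Fact p.Prime] (K : Type*) [Field K] [NumberField K]
  [IsCyclotomicExtension {p} ℚ K]

theorem clRingAction_apply_root (d : (ZMod p)ˣ) {x : 𝓞 K} (hx : x ^ p = 1) :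
    clRingAction p K d x = x ^ (d : ZMod p).val := by
  apply FaithfulSMul.algebraMap_injective (𝓞 K) K
  have h : algebraMap (𝓞 K) K (clRingAction p K d x) =
      (cycloGalEquiv p K).symm d (algebraMap (𝓞 K) K x) :=
    algebraMap_galRestrict_apply ℤ _ x
  rw [h, IsCyclotomicExtension.Rat.galEquivZMod_apply_of_pow_eq p K _
    (by rw [← map_pow, hx, map_one]), map_pow]
  congr
  exact (cycloGalEquiv p K).apply_symm_apply d

lemma absNorm_map_ringEquiv (g : 𝓞 K ≃+* 𝓞 K) (I : Ideal (𝓞 K)) :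
    absNorm (I.map (g : 𝓞 K →+* 𝓞 K)) = absNorm I := by
  simp only [absNorm_apply, Submodule.cardQuot_apply]
  exact (Nat.card_congr (Ideal.quotientEquiv I _ g rfl).toEquiv).symm

lemma card_exponentSet : (Stickelberger.exponentSet p).card = (p - 1) / 2 := by
  have hpp : p.Prime := Fact.out
  have : Stickelberger.exponentSet p = Finset.Icc 1 ((p - 1) / 2) := by
    ext c
    simp only [Stickelberger.mem_exponentSet, Finset.mem_Icc]
    omega
  rw [this, Nat.card_Icc]
  omega

lemma expUnit_coe {c : ℕ} (hc : c ∈ Stickelberger.exponentSet p) :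
    ((Stickelberger.expUnit p c : (ZMod p)ˣ) : ZMod p) = c := by
  rw [Stickelberger.mem_exponentSet] at hc
  have hcop : Nat.Coprime c p :=
    ((Nat.Prime.coprime_iff_not_dvd (Fact.out : p.Prime)).mpr fun h => by
      have := Nat.le_of_dvd hc.1 h; omega).symm
  rw [Stickelberger.expUnit, dif_pos hcop, ZMod.coe_unitOfCoprime]

lemma expUnit_val {c : ℕ} (hc : c ∈ Stickelberger.exponentSet p) :
    ((Stickelberger.expUnit p c : (ZMod p)ˣ) : ZMod p).val = c := by
  rw [expUnit_coe hc]
  rw [Stickelberger.mem_exponentSet] at hc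
  exact ZMod.val_cast_of_lt (by omega)

section FiniteField

variable {F : Type*} [Field F] [Fintype F]

lemma sum_pow_mul_one_sub_pow (i j : ℕ) (h : i + j < Fintype.card F - 1) :
    ∑ x : F, x ^ i * (1 - x) ^ j = 0 := by
  simp_rw [sub_eq_add_neg, add_comm (1 : F) (-_), add_pow, one_pow, mul_one, Finset.mul_sum]
  rw [Finset.sum_comm]
  refine Finset.sum_eq_zero fun k hk => ?_
  rw [Finset.mem_range] at hk
  have : ∀ x : F, x ^ i * ((-x) ^ k * (j.choose k : F)) =
      ((-1) ^ k * (j.choose k : F)) * x ^ (i + k) := fun x => by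
    rw [neg_pow, pow_add]; ring
  simp_rw [this]
  rw [← Finset.mul_sum, FiniteField.sum_pow_lt_card_sub_one F (i + k) (by omega), mul_zero]

/-- A multiplicative character lifting `x ↦ x ^ m`, where `p * m = #F - 1`. -/
lemma exists_lift_powerChar {R : Type*} [CommRing R] (π : R →+* F) {ζ : R}
    (hζ : ζ ^ p = 1) (hζF : IsPrimitiveRoot (π ζ) p) {m : ℕ} (hm : p * m = Fintype.card F - 1) :
    ∃ χ : MulChar F R, (∀ x, π (χ x) = x ^ m) ∧ (∀ x ≠ 0, χ x ^ p = 1) ∧ χ ^ p = 1 := by
  classical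
  obtain ⟨g, hg⟩ := IsCyclic.exists_generator (α := Fˣ)
  have hpp : p.Prime := Fact.out
  have hcard : Fintype.card Fˣ = p * m := by rw [Fintype.card_units, hm]
  have hm0 : m ≠ 0 := by
    rintro rfl
    have := Fintype.one_lt_card (α := F)
    omega
  have hgp : ((g : F) ^ m) ^ p = 1 := by
    rw [← pow_mul, mul_comm, ← hcard, ← Units.val_pow_eq_pow_val, pow_card_eq_one, Units.val_one]
  obtain ⟨k, -, hk⟩ := hζF.eq_pow_of_pow_eq_one hgp
  set u : Rˣ := Units.ofPowEqOne ζ p hζ hpp.ne_zero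
  have hu : u ^ k ∈ rootsOfUnity (Fintype.card Fˣ) R := by
    rw [mem_rootsOfUnity, hcard, ← pow_mul, show k * (p * m) = p * (k * m) by ring, pow_mul,
      Units.pow_ofPowEqOne, one_pow]
  set χ := MulChar.ofRootOfUnity hu hg
  have hgen : χ g = (u ^ k : Rˣ) := MulChar.ofRootOfUnity_spec hu hg
  have hunit : ∀ x : Fˣ, π (χ x) = (x : F) ^ m ∧ χ x ^ p = 1 := by
    intro x
    obtain ⟨n, rfl⟩ := (mem_powers_iff_mem_zpowers).mpr (hg x)
    simp only [Units.val_pow_eq_pow_val, map_pow, hgen]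
    refine ⟨?_, ?_⟩
    · rw [show ((u : Rˣ) : R) = ζ from rfl, hk, ← pow_mul, ← pow_mul, mul_comm n]
    · rw [show ((u : Rˣ) : R) = ζ from rfl, ← pow_mul, ← pow_mul, ← mul_assoc, pow_mul', hζ,
        one_pow]
  refine ⟨χ, fun x => ?_, fun x hx => (hunit (Units.mk0 x hx)).2, MulChar.ext fun x => ?_⟩
  · rcases eq_or_ne x 0 with rfl | hx
    · rw [MulChar.map_zero, map_zero, zero_pow hm0]
    · exact (hunit (Units.mk0 x hx)).1
  · rw [MulChar.pow_apply_coe, MulChar.one_apply_coe]
    exact (hunit x).2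

end FiniteField

variable {K}

section Conjugates

variable {F : Type*} [Field F] [Fintype F]

private theorem isPrincipal_prod_conj_aux (hp : p ≠ 2) {P : Ideal (𝓞 K)} (hP : P.IsPrime)
    (π : 𝓞 K →+* F) (hker : ∀ x, x ∈ P ↔ π x = 0) {l : ℕ} (hl : l.Prime) (hpl : p < l)
    (hPl : absNorm P = l) (hcard : Fintype.card F = l) :
    Submodule.IsPrincipal (∏ c ∈ Stickelberger.exponentSet p,
      P.map (clRingAction p K (Stickelberger.expUnit p c)⁻¹ : 𝓞 K →+* 𝓞 K)) := by
  classical
  have hpp : p.Prime := Fact.out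
  have := Fact.mk hl
  have hchar : CharP F l := charP_of_card_eq_prime hcard
  have hsub : ∀ x y, x - y ∈ P ↔ π x = π y := fun x y => by rw [hker, map_sub, sub_eq_zero]
  -- the residue of a primitive root stays primitive
  set hζK := IsCyclotomicExtension.zeta_spec p ℚ K
  set ζ : 𝓞 K := hζK.toInteger
  have hζ : IsPrimitiveRoot ζ p := hζK.toInteger_isPrimitiveRoot
  have hne1 : π ζ ≠ 1 := by
    intro h1
    have h0 := congrArg π (hζ.geom_sum_eq_zero hpp.one_lt)
    simp only [map_sum, map_pow, h1, one_pow, Finset.sum_const, Finset.card_range, nsmul_eq_mul,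
      mul_one, map_zero] at h0
    have := Nat.le_of_dvd hpp.pos ((CharP.cast_eq_zero_iff F l p).mp h0)
    omega
  have hζF : IsPrimitiveRoot (π ζ) p := by
    rw [IsPrimitiveRoot.iff_orderOf]
    exact orderOf_eq_prime (by rw [← map_pow, hζ.pow_eq_one, map_one]) hne1
  obtain ⟨m, hm⟩ : p ∣ Fintype.card F - 1 := by
    rw [hζF.eq_orderOf, orderOf_dvd_iff_pow_eq_one]
    exact FiniteField.pow_card_sub_one_eq_one _ (hζF.ne_zero hpp.ne_zero)
  obtain ⟨χ, hχπ, hχroot, hχp⟩ := exists_lift_powerChar π hζ.pow_eq_one hζF hm.symm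
  have hm0 : 0 < m := Nat.pos_of_ne_zero fun h => by
    rw [h, hcard] at hm
    have := hl.two_le
    omega
  -- nontriviality
  have hp3 : 2 < p := lt_of_le_of_ne hpp.two_le (Ne.symm hp)
  have hne : ∀ k : ℕ, 0 < k → k < p → χ ^ k ≠ 1 := by
    intro k hk0 hk h1
    obtain ⟨g, hg⟩ := IsCyclic.exists_ofOrder_eq_natCard (α := Fˣ)
    have h2 : ((g : F) ^ m) ^ k = 1 := by
      rw [← hχπ, ← map_pow, ← MulChar.pow_apply_coe, h1, MulChar.one_apply_coe, map_one]
    rw [← pow_mul, ← Units.val_pow_eq_pow_val, Units.val_eq_one] at h2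
    have h3 := Nat.le_of_dvd (by positivity) (orderOf_dvd_of_pow_eq_one h2)
    rw [hg, Nat.card_eq_fintype_card, Fintype.card_units, hm] at h3
    exact absurd h3 (by nlinarith)
  -- Galois action on the Jacobi sums
  have hσ : ∀ d : (ZMod p)ˣ, clRingAction p K d (jacobiSum χ χ) =
      jacobiSum (χ ^ (d : ZMod p).val) (χ ^ (d : ZMod p).val) := by
    intro d
    have hd0 : (d : ZMod p).val ≠ 0 := by
      rw [Ne, ZMod.val_eq_zero]
      exact d.ne_zero
    have hval : ∀ x : F, clRingAction p K d (χ x) = (χ ^ (d : ZMod p).val) x := by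
      intro x
      rw [MulChar.pow_apply' _ hd0]
      rcases eq_or_ne x 0 with rfl | hx
      · rw [MulChar.map_zero, map_zero, zero_pow hd0]
      · exact clRingAction_apply_root K d (hχroot x hx)
    simp only [jacobiSum, map_sum, map_mul, hval]
  set J := jacobiSum χ χ
  -- vanishing of the residues
  have hmem : ∀ d : (ZMod p)ˣ, 2 * (d : ZMod p).val < p → clRingAction p K d J ∈ P := by
    intro d hd
    have hd0 : (d : ZMod p).val ≠ 0 := by
      rw [Ne, ZMod.val_eq_zero]
      exact d.ne_zero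
    rw [hker]
    rw [hσ d]
    simp only [jacobiSum, map_sum, map_mul, MulChar.pow_apply' _ hd0, map_pow, hχπ, ← pow_mul]
    refine sum_pow_mul_one_sub_pow _ _ ?_
    rw [hm]
    nlinarith
  -- the norm of the Jacobi sum
  set d₀ : (ZMod p)ˣ := -1
  have hd₀ : (d₀ : ZMod p).val = p - 1 := by
    obtain ⟨n, hn⟩ := Nat.exists_eq_succ_of_ne_zero hpp.ne_zero
    subst hn
    simp [d₀, ZMod.val_neg_one]
  have hinv : χ ^ (p - 1) = χ⁻¹ := by
    refine eq_inv_of_mul_eq_one_left ?_
    rw [← pow_succ, Nat.sub_add_cancel hpp.one_le, hχp]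
  have hmul : J * clRingAction p K d₀ J = (l : 𝓞 K) := by
    apply FaithfulSMul.algebraMap_injective (𝓞 K) K
    rw [hσ d₀, hd₀, hinv, map_mul, map_natCast, ← jacobiSum_ringHomComp,
      ← jacobiSum_ringHomComp, ← MulChar.ringHomComp_inv, ← hcard]
    have hinj := FaithfulSMul.algebraMap_injective (𝓞 K) K
    refine jacobiSum_mul_jacobiSum_inv ?_ ?_ ?_ ?_
    · rw [ringChar.eq K 0, ringChar.eq F l]
      exact hl.ne_zero.symm
    · rw [MulChar.ringHomComp_ne_one_iff hinj]
      simpa using hne 1 one_pos hpp.one_lt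
    · rw [MulChar.ringHomComp_ne_one_iff hinj]
      simpa using hne 1 one_pos hpp.one_lt
    · rw [← MulChar.ringHomComp_mul, MulChar.ringHomComp_ne_one_iff hinj, ← sq]
      exact hne 2 two_pos hp3
  have hnorm : absNorm (span {J}) * absNorm (span {J}) = l ^ (p - 1) := by
    have h1 : absNorm (span {clRingAction p K d₀ J}) = absNorm (span {J}) := by
      rw [← absNorm_map_ringEquiv K (clRingAction p K d₀) (span {J}), Ideal.map_span,
        Set.image_singleton]
      rfl
    nth_rewrite 2 [← h1]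
    rw [← map_mul, span_singleton_mul_span_singleton, hmul, absNorm_span_singleton,
      show (l : 𝓞 K) = algebraMap ℤ (𝓞 K) l by simp, Algebra.norm_algebraMap, Int.natAbs_pow,
      Int.natAbs_natCast, NumberField.RingOfIntegers.rank,
      IsCyclotomicExtension.finrank K (Polynomial.cyclotomic.irreducible_rat hpp.pos),
      Nat.totient_prime hpp]
  -- the conjugates are distinct
  have hstab : ∀ d : (ZMod p)ˣ, P.map (clRingAction p K d : 𝓞 K →+* 𝓞 K) = P → d = 1 := by
    intro d hd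
    obtain ⟨n, hn⟩ := (ZMod.castHom_bijective F (n := l) hcard).2 (π ζ)
    have hcast : π ζ = π (n.val : 𝓞 K) := by
      rw [← hn, map_natCast, ← map_natCast (ZMod.castHom (dvd_refl l) F), ZMod.natCast_zmod_val]
    have h1 : ζ - (n.val : 𝓞 K) ∈ P := (hsub _ _).mpr hcast
    have h2 := Ideal.mem_map_of_mem (clRingAction p K d : 𝓞 K →+* 𝓞 K) h1
    rw [hd, RingEquiv.coe_toRingHom, map_sub, map_natCast,
      clRingAction_apply_root K d hζ.pow_eq_one, hsub] at h2
    have h3 : π ζ ^ (d : ZMod p).val = π ζ ^ 1 := by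
      rw [pow_one, ← map_pow, hcast]
      exact h2
    refine Units.ext (ZMod.val_injective p ?_)
    rw [Units.val_one, ZMod.val_one]
    exact hζF.pow_inj (ZMod.val_lt _) hpp.one_lt h3
  set Q := fun c : ℕ => P.map (clRingAction p K (Stickelberger.expUnit p c)⁻¹ : 𝓞 K →+* 𝓞 K)
  have hmapmap : ∀ (a b : (ZMod p)ˣ) (I : Ideal (𝓞 K)),
      (I.map (clRingAction p K b : 𝓞 K →+* 𝓞 K)).map (clRingAction p K a : 𝓞 K →+* 𝓞 K) =
        I.map (clRingAction p K (a * b) : 𝓞 K →+* 𝓞 K) := by
    intro a b I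
    rw [Ideal.map_map, map_mul]
    rfl
  have hone : ∀ I : Ideal (𝓞 K), I.map (clRingAction p K 1 : 𝓞 K →+* 𝓞 K) = I := fun I => by
    rw [map_one]
    exact Ideal.map_id I
  have hinjQ : Set.InjOn Q (Stickelberger.exponentSet p) := by
    intro a ha b hb hab
    simp only [Q] at hab
    have h := congrArg (Ideal.map (clRingAction p K (Stickelberger.expUnit p a) : 𝓞 K →+* 𝓞 K)) hab
    rw [hmapmap, hmapmap, mul_inv_cancel, hone] at h
    have := mul_inv_eq_one.mp (hstab _ h.symm)
    rw [← expUnit_val ha, ← expUnit_val hb, this]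
  have hQnorm : ∀ c, absNorm (Q c) = l := fun c => (absNorm_map_ringEquiv K _ P).trans hPl
  have hdvd : (∏ c ∈ Stickelberger.exponentSet p, Q c) ∣ span {J} := by
    rw [← Finset.prod_image (f := fun I : Ideal (𝓞 K) => I) hinjQ]
    refine Finset.prod_primes_dvd _ (fun I hI => ?_) (fun I hI => ?_)
    · obtain ⟨c, hc, rfl⟩ := Finset.mem_image.mp hI
      have := hP
      exact Ideal.prime_of_isPrime (fun h => hl.ne_zero
        (by rw [← hQnorm c, h, absNorm_bot])) (Ideal.map_isPrime_of_equiv _)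
    · obtain ⟨c, hc, rfl⟩ := Finset.mem_image.mp hI
      rw [Ideal.dvd_span_singleton]
      have h := hmem (Stickelberger.expUnit p c) (by
        rw [expUnit_val hc]; exact (Stickelberger.mem_exponentSet.mp hc).2)
      have h' := Ideal.mem_map_of_mem
        (clRingAction p K (Stickelberger.expUnit p c)⁻¹ : 𝓞 K →+* 𝓞 K) h
      have e : clRingAction p K (Stickelberger.expUnit p c)⁻¹
          (clRingAction p K (Stickelberger.expUnit p c) J) = J := by
        rw [← RingAut.mul_apply, ← map_mul, inv_mul_cancel, map_one]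
        rfl
      rw [RingEquiv.coe_toRingHom, e] at h'
      exact h'
  have hprod : absNorm (∏ c ∈ Stickelberger.exponentSet p, Q c) = l ^ ((p - 1) / 2) := by
    rw [map_prod, Finset.prod_congr rfl fun c _ => hQnorm c, Finset.prod_const, card_exponentSet]
  have hJnorm : absNorm (span {J}) = l ^ ((p - 1) / 2) := by
    obtain ⟨k, hk⟩ := hpp.odd_of_ne_two hp
    rw [← Nat.mul_self_inj, hnorm, ← pow_add]
    congr 1
    omega
  obtain ⟨L, hL⟩ := hdvd
  have hL1 : absNorm L = 1 := by
    have := congrArg absNorm hL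
    rw [map_mul, hprod, hJnorm] at this
    exact (Nat.eq_of_mul_eq_mul_left (pow_pos hl.pos _) (by rw [← this, mul_one])).symm
  rw [absNorm_eq_one_iff.mp hL1, Ideal.mul_top] at hL
  exact ⟨⟨J, by rw [← hL]⟩⟩

end Conjugates

/-- The product of the conjugates `σ_c⁻¹ P` over `0 < c < p/2` is principal. -/
theorem isPrincipal_prod_conj (hp : p ≠ 2) {P : Ideal (𝓞 K)} (hP : P.IsPrime)
    (hgood : DegOne.IsGood K p P) :
    Submodule.IsPrincipal (∏ c ∈ Stickelberger.exponentSet p,
      P.map (clRingAction p K (Stickelberger.expUnit p c)⁻¹ : 𝓞 K →+* 𝓞 K)) := by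
  have hP0 : P ≠ ⊥ := fun h => hgood.1.ne_zero (absNorm_eq_zero_iff.mpr h)
  have hmax := hP.isMaximal hP0
  have : Finite (𝓞 K ⧸ P) := Ring.HasFiniteQuotients.finiteQuotient hP0
  exact @isPrincipal_prod_conj_aux p _ K _ _ _ (𝓞 K ⧸ P) (Ideal.Quotient.field P)
    (Fintype.ofFinite _) hp P hP (Ideal.Quotient.mk P)
    (fun x => Ideal.Quotient.eq_zero_iff_mem.symm) (absNorm P) hgood.1 hgood.2 rfl
    (by rw [absNorm_apply, Submodule.cardQuot_apply]; exact (@Nat.card_eq_fintype_card (𝓞 K ⧸ P) (Fintype.ofFinite _)).symm)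

end Fermat.Agent.S14.Jacobi
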