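import Fermat.Prelude.Def_ClassGroup_GaloisAction
import Fermat.Agent.S14.Eigen
import Fermat.Agent.S14.JacobiIdeal

/-!
# The `ω⁻¹` part of the class group of the `p`-th cyclotomic field

Stickelberger's relation for the Jacobi-sum element `∑_{0<c<p/2} σ_c⁻¹` kills the whole class
group of `ℚ(ζ_p)`; on an `ω⁻¹`-isotypic quotient it is multiplication by a unit modulo `p`.
-/

set_option autoImplicit false

open scoped NumberField nonZeroDivisors

namespace Fermat.Agent.S14

open JacobiSumStickelberger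

variable {p : ℕ} [Fact p.Prime] (K : Type*) [Field K] [NumberField K]
  [IsCyclotomicExtension {p} ℚ K]

/-- The action of `clRingAction` on `p`-th roots of unity. -/
theorem clRingAction_apply_of_pow_eq (d : (ZMod p)ˣ) {x : 𝓞 K} (hx : x ^ p = 1) :
    clRingAction p K d x = x ^ (d : ZMod p).val :=
  Jacobi.clRingAction_apply_root K d hx

/-- Stickelberger's theorem for the Jacobi-sum element `∑_{0<c<p/2} σ_c⁻¹`. -/
theorem stickelberger_classGroup (hp : p ≠ 2) (C : ClassGroup (𝓞 K)) :
    ∏ c ∈ Stickelberger.exponentSet p,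
      ClassGroup.mulEquiv (clRingAction p K (Stickelberger.expUnit p c)⁻¹) C = 1 := by
  let φ : ClassGroup (𝓞 K) →* ClassGroup (𝓞 K) := ∏ c ∈ Stickelberger.exponentSet p,
    (ClassGroup.mulEquiv (clRingAction p K (Stickelberger.expUnit p c)⁻¹)).toMonoidHom
  have hφ : φ = 1 := by
    refine DegOne.hom_eq_one_of_forall_isGood K p φ fun P hP hgood => ?_
    simp only [φ, MonoidHom.finsetProd_apply, MulEquiv.toMonoidHom_eq_coe, MonoidHom.coe_coe,
      ClassGroup.mulEquiv_mk0]
    rw [← map_prod, ClassGroup.mk0_eq_one_iff (SetLike.coe_mem _), Submonoid.coe_finsetProd]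
    simp only [Ideal.coe_mapNonZero]
    exact Jacobi.isPrincipal_prod_conj hp hP hgood
  have h := DFunLike.congr_fun hφ C
  simpa only [φ, MonoidHom.finsetProd_apply, MulEquiv.toMonoidHom_eq_coe, MonoidHom.coe_coe,
    MonoidHom.one_apply] using h

theorem stickelbergerAnnihilates_clGalAction (hp : p ≠ 2) :
    Stickelberger.StickelbergerAnnihilates (clGalAction p K) := by
  intro a
  obtain ⟨C, rfl⟩ := clProj_surjective p (𝓞 K) a
  have h := congrArg (fun x => clProj p (𝓞 K) (Additive.ofMul x))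
    (stickelberger_classGroup K hp C.toMul)
  simp only [ofMul_prod, ofMul_one, map_sum, map_zero] at h
  rw [Stickelberger.stickelbergerEnd, LinearMap.sum_apply]
  exact h

/-- The `ω⁻¹`-eigenspace of `Cl(ℚ(ζ_p))/p` is trivial. -/
theorem clGalAction_omega_inv_eq_zero (hp : p ≠ 2) (a : ClGalModule p (𝓞 K))
    (ha : ∀ d : (ZMod p)ˣ, clGalAction p K d a = ((d⁻¹ : (ZMod p)ˣ) : ZMod p) • a) : a = 0 :=
  eigenvector_eq_zero_of_stickelberger hp _ (stickelbergerAnnihilates_clGalAction K hp) a ha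

/-- `Cl(ℚ(ζ_p))` has no nontrivial homomorphism to a group of exponent `p` transforming by `ω⁻¹`. -/
theorem hom_classGroup_omega_inv_eq_one (hp : p ≠ 2) {M : Type*} [CommGroup M]
    (hM : ∀ x : M, x ^ p = 1) (φ : ClassGroup (𝓞 K) →* M)
    (hφ : ∀ (d : (ZMod p)ˣ) (C : ClassGroup (𝓞 K)),
      φ (ClassGroup.mulEquiv (clRingAction p K d) C) = φ C ^ ((d⁻¹ : (ZMod p)ˣ) : ZMod p).val) :
    φ = 1 := by
  ext C
  set x := φ C with hx
  have h := congrArg φ (stickelberger_classGroup K hp C)
  simp only [map_prod, hφ, inv_inv, map_one] at h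
  rw [Finset.prod_pow_eq_pow_sum] at h
  rw [MonoidHom.one_apply]
  refine orderOf_eq_one_iff.mp (((Nat.dvd_prime (Fact.out : p.Prime)).mp
    (orderOf_dvd_of_pow_eq_one (hM x))).resolve_right fun ho => ?_)
  apply eigenvalueScalar_ne_zero (p := p) hp
  have hd' := orderOf_dvd_of_pow_eq_one h
  rw [ho] at hd'
  have hd := (ZMod.natCast_eq_zero_iff _ p).mpr hd'
  rw [Stickelberger.eigenvalueScalar, Nat.cast_sum]
  rw [Nat.cast_sum] at hd
  rw [← hd]
  refine Finset.sum_congr rfl fun c hc => ?_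
  rw [Stickelberger.mem_exponentSet] at hc
  have hpp : p.Prime := Fact.out
  have hcop : Nat.Coprime c p :=
    ((Nat.Prime.coprime_iff_not_dvd hpp).mpr fun h => by
      have := Nat.le_of_dvd hc.1 h; omega).symm
  rw [ZMod.natCast_val, ZMod.cast_id, Stickelberger.expUnit, dif_pos hcop, ZMod.coe_unitOfCoprime]

end Fermat.Agent.S14
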